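import Fermat.Agent.LocalPts.Divisible
import Fermat.Agent.KummerDeRham.Kummer

/-!
# Algebraic points over `ℚ_p`

The points over `ℚ̄` fixed by an open subgroup of the Galois group of `ℚ_p` are points over the
corresponding finite extension. Torsion points over the algebraic closure of `ℚ_p` are algebraic.
-/

set_option autoImplicit false
set_option linter.unusedSectionVars false

noncomputable section

open Polynomial WeierstrassCurve FA.EC FA.Local FA.Frob FA.RT.Tate
open scoped WeierstrassCurve.Affine Classical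

namespace FA.LocalPts

variable {p : ℕ} [hp : Fact p.Prime] {W : WeierstrassCurve ℤ} [(ratCurve W).IsElliptic]

local notation "Cl" => PadicAlgCl p
local notation "Qb" => AlgebraicClosure ℚ
local notation "GQ" => AlgebraicClosure ℚ ≃ₐ[ℚ] AlgebraicClosure ℚ
local notation "G" => PadicAlgCl p ≃ₐ[ℚ_[p]] PadicAlgCl p

/-- The equation over a field. -/
abbrev atField (W : WeierstrassCurve ℤ) (K : Type*) [Field K] : WeierstrassCurve K :=
  W.map (Int.castRingHom K)

instance isElliptic_atField (K : Type*) [Field K] [CharZero K] : (atField W K).IsElliptic := by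
  have e : atField W K = (ratCurve W).map (algebraMap ℚ K) := by ext <;> simp [atField, ratCurve]
  rw [e]
  infer_instance

theorem map_atField {K L : Type*} [Field K] [Field L] (f : K →+* L) :
    (atField W K).toAffine.map f = (atField W L).toAffine := by
  ext <;> simp [atField]

variable (p) in
/-- The points over `ℚ̄` inside the points over the algebraic closure of `ℚ_p`. -/
def toLocal : Pts W →+ (atField W (PadicAlgCl p)).toAffine.Point :=
  mapHom (padicEmbedding p).toRingHom (by ext <;> simp [atField, ratCurve])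

theorem toLocal_injective : Function.Injective (toLocal p (W := W)) := mapHom_injective _ _

theorem mem_range_of_root {f : Qb[X]} (hf : f ≠ 0) {z : Cl}
    (hz : (f.map (padicEmbedding p).toRingHom).eval z = 0) : ∃ x, padicEmbedding p x = z := by
  have h : z ∈ (f.map (padicEmbedding p).toRingHom).roots :=
    (mem_roots ((Polynomial.map_ne_zero_iff (padicEmbedding p).toRingHom.injective).2 hf)).2 hz
  rw [(IsAlgClosed.splits f).roots_map, Multiset.mem_map] at h
  obtain ⟨x, -, hx⟩ := h
  exact ⟨x, hx⟩

/-- A point with algebraic abscissa is algebraic. -/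
theorem exists_toLocal_of_xc {x : Qb} {y : Cl}
    (h : (atField W Cl).toAffine.Nonsingular (padicEmbedding p x) y) :
    ∃ P : Pts W, toLocal p P = .some _ y h := by
  set V := ((ratCurve W)⁄Qb).toAffine
  have hmap : V.map (padicEmbedding p).toRingHom = (atField W Cl).toAffine := by
    ext <;> simp [V, atField, ratCurve]
  set f : Qb[X] := X ^ 2 + C (V.a₁ * x + V.a₃) * X -
    C (x ^ 3 + V.a₂ * x ^ 2 + V.a₄ * x + V.a₆) with hf
  have hf0 : f ≠ 0 := fun h0 => by
    have h2 := congrArg (fun q : Qb[X] => q.coeff 2) h0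
    simp only [hf, coeff_sub, coeff_add, coeff_C_mul, coeff_X_pow, coeff_X, coeff_C,
      coeff_zero] at h2
    norm_num at h2
  have hE := (Affine.equation_iff _ _).1 h.1
  obtain ⟨y₀, hy₀⟩ := mem_range_of_root hf0 (z := y) (by
    rw [← hmap] at hE
    simp only [hf, Polynomial.map_sub, Polynomial.map_add, Polynomial.map_mul, Polynomial.map_pow,
      map_X, map_C, eval_sub, eval_add, eval_mul, eval_pow, eval_X, eval_C, map_add, map_mul,
      map_pow]
    simp only [WeierstrassCurve.map_a₁, WeierstrassCurve.map_a₂, WeierstrassCurve.map_a₃,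
      WeierstrassCurve.map_a₄, WeierstrassCurve.map_a₆] at hE
    simp only [AlgHom.toRingHom_eq_coe, RingHom.coe_coe] at hE ⊢
    linear_combination hE)
  subst hy₀
  have h0 : V.Nonsingular x y₀ := by
    have := (hmap.symm ▸ h : (V.map (padicEmbedding p).toRingHom).toAffine.Nonsingular _ _)
    exact (V.map_nonsingular (padicEmbedding p).toRingHom.injective x y₀).1 this
  exact ⟨.some x y₀ h0, rfl⟩

/-- A point with a multiple over `ℚ̄` is over `ℚ̄`. -/
theorem exists_toLocal_of_nsmul {n : ℕ} (hn : n ≠ 0) {Q : (atField W Cl).toAffine.Point}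
    {S : Pts W} (h : n • Q = toLocal p S) : ∃ P : Pts W, toLocal p P = Q := by
  obtain ⟨R, hR⟩ := FA.PointDiv.exists_div W hn S
  have ht : n • (Q - toLocal p R) = 0 := by
    rw [nsmul_sub, h, ← map_nsmul, hR, sub_self]
  suffices ∃ P : Pts W, toLocal p P = Q - toLocal p R by
    obtain ⟨P, hP⟩ := this
    exact ⟨P + R, by rw [map_add, hP, sub_add_cancel]⟩
  generalize Q - toLocal p R = T at ht ⊢
  rcases T with _ | ⟨x, y, hT⟩
  · exact ⟨0, map_zero _⟩
  rw [nsmul_eq_zero_iff hT] at ht
  have hΨ : ((ratCurve W)⁄Qb).ΨSq n ≠ 0 :=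
    WeierstrassCurve.ΨSq_ne_zero _ (by exact_mod_cast hn)
  obtain ⟨x₀, rfl⟩ := mem_range_of_root hΨ (z := x) (by
    rw [← WeierstrassCurve.map_ΨSq]
    have e : WeierstrassCurve.map ((ratCurve W)⁄Qb) (padicEmbedding p).toRingHom =
        atField W Cl := by
      ext <;> simp [atField, ratCurve]
    exact (congrArg (fun V : WeierstrassCurve Cl => (V.ΨSq n).eval x) e).trans ht)
  exact exists_toLocal_of_xc hT

/-- The Galois action after embedding. -/
theorem toLocal_smul_some (τ : G) {x y : Qb}
    (h : ((ratCurve W)⁄Qb).toAffine.Nonsingular x y)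
    (hfix : localGaloisToGlobal p τ • (Affine.Point.some x y h : Pts W) = .some x y h) :
    τ (padicEmbedding p x) = padicEmbedding p x ∧ τ (padicEmbedding p y) = padicEmbedding p y := by
  obtain ⟨h', he⟩ := smul_some (σ := localGaloisToGlobal p τ) (ratCurve W) h
  rw [he, Affine.Point.some.injEq] at hfix
  rw [← padicEmbedding_localGaloisToGlobal, ← padicEmbedding_localGaloisToGlobal]
  exact ⟨congrArg _ hfix.1, congrArg _ hfix.2⟩

/-- **A point fixed by the automorphisms over a subextension is a point over it.** -/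
theorem exists_descend (L : IntermediateField ℚ_[p] (PadicAlgCl p)) {Q : Pts W}
    (hfix : ∀ τ ∈ L.fixingSubgroup, localGaloisToGlobal p τ • Q = Q) :
    ∃ T : (atField W L).toAffine.Point,
      mapHom L.val.toRingHom (map_atField _) T = toLocal p Q := by
  rcases Q with _ | ⟨x, y, h⟩
  · exact ⟨0, by rw [map_zero]; exact (map_zero (toLocal p (W := W))).symm⟩
  have hmem : ∀ z : Cl, (∀ τ ∈ L.fixingSubgroup, τ z = z) → z ∈ L := fun z hz => by
    rw [← InfiniteGalois.fixedField_fixingSubgroup L]
    exact (IntermediateField.mem_fixedField_iff _ _).2 hz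
  set a : L := ⟨padicEmbedding p x,
    hmem _ fun τ hτ => (toLocal_smul_some τ h (hfix τ hτ)).1⟩
  set b : L := ⟨padicEmbedding p y,
    hmem _ fun τ hτ => (toLocal_smul_some τ h (hfix τ hτ)).2⟩
  have hn : (atField W L).toAffine.Nonsingular a b := by
    refine ((atField W L).toAffine.map_nonsingular L.val.toRingHom.injective a b).1 ?_
    rw [map_atField]
    exact nonsingular_mapHom (padicEmbedding p).toRingHom (by ext <;> simp [atField, ratCurve]) h
  exact ⟨.some a b hn, rfl⟩

/-- A point fixed by the whole group is a point over `ℚ_p`. -/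
theorem exists_descend_padic {Q : Pts W} (hfix : ∀ τ : G, localGaloisToGlobal p τ • Q = Q) :
    ∃ T : (atField W ℚ_[p]).toAffine.Point,
      mapHom (algebraMap ℚ_[p] Cl) (map_atField _) T = toLocal p Q := by
  rcases Q with _ | ⟨x, y, h⟩
  · exact ⟨0, by rw [map_zero]; exact (map_zero (toLocal p (W := W))).symm⟩
  obtain ⟨a, ha⟩ := (InfiniteGalois.mem_range_algebraMap_iff_fixed (k := ℚ_[p])
    (padicEmbedding p x)).2 fun τ => (toLocal_smul_some τ h (hfix τ)).1
  obtain ⟨b, hb⟩ := (InfiniteGalois.mem_range_algebraMap_iff_fixed (k := ℚ_[p])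
    (padicEmbedding p y)).2 fun τ => (toLocal_smul_some τ h (hfix τ)).2
  have hn : (atField W ℚ_[p]).toAffine.Nonsingular a b := by
    refine ((atField W ℚ_[p]).toAffine.map_nonsingular (algebraMap ℚ_[p] Cl).injective a b).1 ?_
    rw [map_atField, ha, hb]
    exact nonsingular_mapHom (padicEmbedding p).toRingHom (by ext <;> simp [atField, ratCurve]) h
  refine ⟨.some a b hn, ?_⟩
  rw [mapHom_some]
  exact (Affine.Point.some.injEq ..).mpr ⟨ha, hb⟩

/-- A point over the algebraic closure of `ℚ_p` which comes from `ℚ_p` is fixed. -/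
theorem smul_eq_of_toLocal {T : (atField W ℚ_[p]).toAffine.Point} {P : Pts W}
    (h : mapHom (algebraMap ℚ_[p] Cl) (map_atField _) T = toLocal p P) (τ : G) :
    localGaloisToGlobal p τ • P = P := by
  rcases P with _ | ⟨x, y, hP⟩
  · exact gal_smul_zero _ _
  rcases T with _ | ⟨a, b, hT⟩
  · exact absurd h.symm (Affine.Point.some_ne_zero _)
  rw [mapHom_some] at h
  have h' := (Affine.Point.some.injEq ..).mp h
  obtain ⟨hn, he⟩ := smul_some (σ := localGaloisToGlobal p τ) (ratCurve W) hP
  rw [he]
  refine (Affine.Point.some.injEq ..).mpr ⟨?_, ?_⟩ <;>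
    refine (padicEmbedding p).toRingHom.injective ?_
  · refine (padicEmbedding_localGaloisToGlobal p τ x).trans ?_
    show τ ((padicEmbedding p).toRingHom x) = (padicEmbedding p).toRingHom x
    rw [← h'.1, AlgEquiv.commutes]
  · refine (padicEmbedding_localGaloisToGlobal p τ y).trans ?_
    show τ ((padicEmbedding p).toRingHom y) = (padicEmbedding p).toRingHom y
    rw [← h'.2, AlgEquiv.commutes]

theorem intCoeff_atField (K : Type*) [NormedField K] [IsUltrametricDist K] :
    IntCoeff (NormedField.valuation (K := K)) (atField W K).toAffine :=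
  ⟨intCast_le_one _, intCast_le_one _, intCast_le_one _, intCast_le_one _, intCast_le_one _⟩

end FA.LocalPts
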