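import Fermat.Agent.LocalPts.Level
import Mathlib.NumberTheory.Padics.Hensel

/-!
# Lutz's theorem

The points over `ℚ_p` have a subgroup of finite index isomorphic to `ℤ_p`, generated topologically
by a point with abscissa `p ^ (-6)`.
-/

set_option autoImplicit false
set_option linter.unusedSectionVars false

noncomputable section

open Filter Topology Polynomial WeierstrassCurve FA.EC FA.Local
open scoped Classical

namespace FA.LocalPts

variable {p : ℕ} [hp : Fact p.Prime] {W : WeierstrassCurve ℚ_[p]} [W.IsElliptic]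
  (hI : IntCoeff (NormedField.valuation (K := ℚ_[p])) W.toAffine)
include hI

/-- There is a point with abscissa `p ^ (-6)`. -/
theorem exists_generator : ∃ (y : ℚ_[p])
    (h : W.toAffine.Nonsingular (((p : ℚ_[p]) ^ 6)⁻¹) y),
    Affine.Point.some _ y h ∈ lev hI 2 ∧ Affine.Point.some _ y h ∉ lev hI 3 := by
  have hc : ∀ {a : ℚ_[p]}, NormedField.valuation a ≤ 1 → ∃ b : ℤ_[p], (b : ℚ_[p]) = a :=
    fun {a} h => ⟨⟨a, by exact_mod_cast h⟩, rfl⟩
  obtain ⟨a1, e1⟩ := hc hI.h₁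
  obtain ⟨a2, e2⟩ := hc hI.h₂
  obtain ⟨a3, e3⟩ := hc hI.h₃
  obtain ⟨a4, e4⟩ := hc hI.h₄
  obtain ⟨a6, e6⟩ := hc hI.h₆
  set q : ℤ_[p] := (p : ℤ_[p]) ^ 3
  set b := q * (a1 + q ^ 2 * a3)
  set c := q * (q * a2 + q ^ 3 * a4 + q ^ 5 * a6)
  set F : ℤ_[p][X] := X ^ 2 + C b * X - C (1 + c)
  have hq : ∀ r : ℤ_[p], ‖q * r‖ ≤ ((p : ℝ) ^ 3)⁻¹ := fun r => by
    rw [norm_mul, norm_pow, PadicInt.norm_p, inv_pow]
    exact mul_le_of_le_one_right (by positivity) (PadicInt.norm_le_one r)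
  have h2 : (p : ℝ)⁻¹ ≤ ‖(2 : ℤ_[p])‖ := by
    rcases eq_or_ne p 2 with h | h
    · rw [show (2 : ℤ_[p]) = (p : ℤ_[p]) from by simp [h], PadicInt.norm_p]
    · rw [show ‖(2 : ℤ_[p])‖ = 1 from ?_]
      · exact inv_le_one_of_one_le₀ (Nat.one_le_cast.2 hp.out.one_le)
      · show ‖((2 : ℤ_[p]) : ℚ_[p])‖ = 1
        exact_mod_cast Padic.norm_natCast_eq_one_iff.2
          ((Nat.coprime_primes hp.out Nat.prime_two).2 h)
  have hp1 : (1 : ℝ) < p := Nat.one_lt_cast.2 hp.out.one_lt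
  have hlt : ((p : ℝ) ^ 3)⁻¹ < (p : ℝ)⁻¹ :=
    inv_strictAnti₀ (by positivity) (lt_self_pow₀ hp1 (by norm_num))
  have hev : F.aeval (1 : ℤ_[p]) = b - c := by
    simp only [F, map_sub, map_add, map_mul, map_pow, aeval_X, aeval_C, Algebra.algebraMap_self,
      RingHom.id_apply]
    ring
  have hder : F.derivative.aeval (1 : ℤ_[p]) = 2 + b := by
    simp only [F, derivative_mul, derivative_X_pow, derivative_C, derivative_one,
      derivative_X, map_sub, map_add, map_mul, map_pow, aeval_X, aeval_C, Algebra.algebraMap_self,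
      RingHom.id_apply, map_zero, map_one, Nat.cast_ofNat]
    ring
  have hd : (p : ℝ)⁻¹ ≤ ‖(2 : ℤ_[p]) + b‖ := by
    have hb : ‖b‖ < ‖(2 : ℤ_[p])‖ := ((hq _).trans_lt hlt).trans_le h2
    rw [IsUltrametricDist.norm_add_eq_max_of_norm_ne_norm hb.ne', max_eq_left hb.le]
    exact h2
  obtain ⟨z, hz, -⟩ := hensels_lemma (F := F) (a := (1 : ℤ_[p])) (by
    rw [hev, hder]
    refine lt_of_lt_of_le ?_ (pow_le_pow_left₀ (by positivity) hd 2)
    rw [show b - c = q * (a1 + q ^ 2 * a3 - (q * a2 + q ^ 3 * a4 + q ^ 5 * a6)) by ring, inv_pow]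
    exact (hq _).trans_lt (inv_strictAnti₀ (by positivity) (pow_lt_pow_right₀ hp1 (by norm_num))))
  simp only [F, map_sub, map_add, map_mul, map_pow, aeval_X, aeval_C, Algebra.algebraMap_self,
    RingHom.id_apply] at hz
  have hz' := congrArg (fun t : ℤ_[p] => (t : ℚ_[p])) hz
  simp only [b, c, q, PadicInt.coe_sub, PadicInt.coe_add, PadicInt.coe_mul, PadicInt.coe_pow,
    PadicInt.coe_natCast, PadicInt.coe_one, PadicInt.coe_zero, e1, e2, e3, e4, e6] at hz'
  have hp0 : (p : ℚ_[p]) ≠ 0 := Nat.cast_ne_zero.2 hp.out.ne_zero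
  have hE : W.toAffine.Equation (((p : ℚ_[p]) ^ 6)⁻¹) (((p : ℚ_[p]) ^ 9)⁻¹ * z) := by
    rw [Affine.equation_iff]
    field_simp
    linear_combination hz'
  exact ⟨_, Affine.equation_iff_nonsingular.1 hE, exact_of_norm_xc hI
    (by rw [xc_some, norm_inv, norm_pow, Padic.norm_p, inv_pow, inv_inv])
    (Affine.Point.some_ne_zero _)⟩

variable {g : W.toAffine.Point} (h1 : g ∈ lev hI 2) (h2 : g ∉ lev hI 3)
include h1 h2

theorem pow_dvd_of_zsmul_mem {k : ℕ} {j : ℤ} (h : j • g ∈ lev hI (2 + k)) : (p : ℤ) ^ k ∣ j := by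
  induction k generalizing j with
  | zero => simp
  | succ k ih =>
    obtain ⟨i, rfl⟩ := ih (lev_antitone hI (by omega) h)
    obtain ⟨hk1, hk2⟩ := exact_pow_nsmul hI (n := 2) (by omega) h1 h2 k
    rw [pow_succ]
    refine mul_dvd_mul_left _ (by_contra fun hi => ?_)
    refine nsmul_not_mem_lev hI (n := 2 + k) (by omega) hk1 hk2 hi ?_
    rw [← natCast_zsmul, ← mul_zsmul, Nat.cast_pow, mul_comm, add_assoc]
    exact h

theorem pow_zsmul_mem (k : ℕ) (i : ℤ) : ((p : ℤ) ^ k * i) • g ∈ lev hI (2 + k) := by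
  rw [mul_comm, mul_zsmul, ← Nat.cast_pow, natCast_zsmul]
  exact zsmul_mem (exact_pow_nsmul hI (n := 2) (by omega) h1 h2 k).1 i

omit h1 h2 in
/-- The integers near `a` send `g` near `P`. -/
def Near (g P : W.toAffine.Point) (a : ℤ_[p]) : Prop :=
  ∀ (k : ℕ) (j : ℤ), ‖(j : ℤ_[p]) - a‖ ≤ (p : ℝ) ^ (-k : ℤ) → P - j • g ∈ lev hI (2 + k)

theorem near_of {P : W.toAffine.Point} {a : ℤ_[p]}
    (h : ∀ k : ℕ, ∃ j : ℤ, ‖(j : ℤ_[p]) - a‖ ≤ (p : ℝ) ^ (-k : ℤ) ∧ P - j • g ∈ lev hI (2 + k)) :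
    Near hI g P a := fun k j hj => by
  obtain ⟨i, hi, hiP⟩ := h k
  have hd : (p : ℤ) ^ k ∣ i - j := by
    rw [← PadicInt.norm_int_le_pow_iff_dvd, Int.cast_sub,
      show (i : ℤ_[p]) - j = (i - a) + -((j : ℤ_[p]) - a) by ring]
    exact (PadicInt.nonarchimedean _ _).trans (max_le hi (by rwa [norm_neg]))
  obtain ⟨m, hm⟩ := hd
  rw [show P - j • g = (P - i • g) + (i - j) • g by module, hm]
  exact add_mem hiP (pow_zsmul_mem hI h1 h2 k m)

theorem near_unique {P : W.toAffine.Point} {a a' : ℤ_[p]} (h : Near hI g P a)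
    (h' : Near hI g P a') : a = a' := by
  have happ : ∀ (x : ℤ_[p]) (k : ℕ), ‖((x.appr k : ℤ) : ℤ_[p]) - x‖ ≤ (p : ℝ) ^ (-k : ℤ) := by
    intro x k
    rw [Int.cast_natCast, norm_sub_rev, PadicInt.norm_le_pow_iff_mem_span_pow]
    exact PadicInt.appr_spec k x
  refine PadicInt.ext_of_toZModPow.1 fun k => ?_
  have hd := pow_dvd_of_zsmul_mem hI h1 h2 (k := k) (j := (a.appr k : ℤ) - a'.appr k) (by
    rw [show ((a.appr k : ℤ) - a'.appr k) • g =
      (P - (a'.appr k : ℤ) • g) - (P - (a.appr k : ℤ) • g) by module]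
    exact sub_mem (h' k _ (happ a' k)) (h k _ (happ a k)))
  have e : ∀ x : ℤ_[p], PadicInt.toZModPow k x = ((x.appr k : ℤ) : ZMod (p ^ k)) := fun x => by
    rw [Int.cast_natCast]; rfl
  rw [e, e, ← sub_eq_zero, ← Int.cast_sub, ZMod.intCast_zmod_eq_zero_iff_dvd, Nat.cast_pow]
  exact hd

theorem exists_near {P : W.toAffine.Point} (hP : P ∈ lev hI 2) : ∃ a, Near hI g P a := by
  have hex : ∀ k : ℕ, ∃ j : ℤ, P - j • g ∈ lev hI (2 + k) := fun k => by
    induction k with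
    | zero => exact ⟨0, by simpa using hP⟩
    | succ k ih =>
      obtain ⟨j, hj⟩ := ih
      obtain ⟨hk1, hk2⟩ := exact_pow_nsmul hI (n := 2) (by omega) h1 h2 k
      obtain ⟨i, hi⟩ := exists_layer hI (by omega) hk1 hk2 hj
      refine ⟨j + i * (p : ℤ) ^ k, ?_⟩
      rw [← Nat.cast_pow, add_zsmul, mul_zsmul, natCast_zsmul, ← sub_sub, ← add_assoc]
      exact hi
  choose j hj using hex
  obtain ⟨a, -, φ, hφ, ha⟩ := isCompact_univ.tendsto_subseq
    (x := fun k => (j k : ℤ_[p])) fun _ => Set.mem_univ _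
  refine ⟨a, near_of hI h1 h2 fun k => ?_⟩
  have hev := (Metric.tendsto_atTop.1 ha) ((p : ℝ) ^ (-k : ℤ))
    (zpow_pos (Nat.cast_pos.2 hp.out.pos) _)
  obtain ⟨N, hN⟩ := hev
  have hl := hN (max N k) (le_max_left _ _)
  rw [dist_eq_norm] at hl
  exact ⟨_, hl.le, lev_antitone hI (Nat.add_le_add_left
    ((le_max_right N k).trans (hφ.id_le _)) 2) (hj _)⟩

/-- Every unit of `ℤ_p` is the parameter of a point. -/
theorem exists_point_of_unit {a : ℤ_[p]} (ha : ‖a‖ = 1) :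
    ∃ P ∈ lev hI 2, Near hI g P a := by
  set j : ℕ → ℤ := fun k => (a.appr k : ℤ)
  have happ : ∀ k, ‖(j k : ℤ_[p]) - a‖ ≤ (p : ℝ) ^ (-k : ℤ) := fun k => by
    rw [Int.cast_natCast, norm_sub_rev, PadicInt.norm_le_pow_iff_mem_span_pow]
    exact PadicInt.appr_spec k a
  have hstep : ∀ {k l}, k ≤ l → (j l - j k) • g ∈ lev hI (2 + k) := fun {k l} hkl => by
    have hd : (p : ℤ) ^ k ∣ j l - j k := by
      rw [← PadicInt.norm_int_le_pow_iff_dvd, Int.cast_sub,
        show (j l : ℤ_[p]) - j k = (j l - a) + -((j k : ℤ_[p]) - a) by ring]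
      refine (PadicInt.nonarchimedean _ _).trans (max_le ((happ l).trans ?_)
        (by rw [norm_neg]; exact happ k))
      exact zpow_le_zpow_right₀ (Nat.one_le_cast.2 hp.out.one_le) (by omega)
    obtain ⟨m, hm⟩ := hd
    rw [hm]
    exact pow_zsmul_mem hI h1 h2 k m
  have hj : ∀ k, 1 ≤ k → j k • g ∈ lev hI 2 ∧ j k • g ∉ lev hI 3 := fun k hk => by
    refine ⟨zsmul_mem h1 _, nsmul_not_mem_lev hI (n := 2) (by omega) h1 h2 fun hd => ?_⟩
    have h3 : ‖a‖ < 1 := by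
      have e : a = (j k : ℤ_[p]) + -((j k : ℤ_[p]) - a) := by ring
      rw [e]
      refine (PadicInt.nonarchimedean _ _).trans_lt (max_lt ?_ ?_)
      · exact Padic.norm_intCast_lt_one_iff.2 hd
      · rw [norm_neg]
        exact (happ k).trans_lt (zpow_lt_one_of_neg₀ (Nat.one_lt_cast.2 hp.out.one_lt) (by omega))
    exact h3.ne ha
  have hcoord : ∀ k, ∃ x y h, j (k + 1) • g = Affine.Point.some x y h ∧
      ‖x‖ = (p : ℝ) ^ 6 ∧ W.toAffine.Equation x y := fun k => by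
    obtain ⟨hm, hm'⟩ := hj (k + 1) (by omega)
    obtain ⟨h0, hx⟩ := norm_xc_of_exact hI hm hm'
    obtain ⟨x, y, h, he⟩ := exists_some_of_ne_zero h0
    rw [he, xc_some] at hx
    exact ⟨x, y, h, he, hx, h.1⟩
  choose X Y hns hQ hX hE using hcoord
  have hone : (1 : ℝ) ≤ (p : ℝ) ^ 6 := one_le_pow₀ (Nat.one_le_cast.2 hp.out.one_le)
  obtain ⟨⟨x, y⟩, -, φ, hφ, hlim⟩ := ((isCompact_closedBall (0 : ℚ_[p]) ((p : ℝ) ^ 6)).prod
    (isCompact_closedBall (0 : ℚ_[p]) (((p : ℝ) ^ 6) ^ 2))).tendsto_subseq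
      (x := fun k => (X k, Y k)) fun k =>
        ⟨mem_closedBall_zero_iff.2 (hX k).le,
          mem_closedBall_zero_iff.2 (norm_snd_le hI (hE k) hone (hX k).le)⟩
  have hclosed : IsClosed {q : ℚ_[p] × ℚ_[p] | W.toAffine.Equation q.1 q.2 ∧
      ‖q.1‖ = (p : ℝ) ^ 6} := by
    simp only [Affine.equation_iff]
    exact (isClosed_eq (by fun_prop) (by fun_prop)).inter (isClosed_eq (by fun_prop) (by fun_prop))
  obtain ⟨hxy, hx⟩ := hclosed.mem_of_tendsto hlim
    (Filter.Eventually.of_forall fun k => ⟨hE (φ k), hX (φ k)⟩)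
  have hP := Affine.equation_iff_nonsingular.1 hxy
  refine ⟨Affine.Point.some x y hP, (some_mem_lev hI).2 (hx ▸ pow_lt_pow_right₀
    (Nat.one_lt_cast.2 hp.out.one_lt) (by norm_num)), near_of hI h1 h2 fun k => ?_⟩
  obtain ⟨l, hl1, hl2⟩ := (((hlim.eventually (eventually_far hP
    ((p : ℝ) ^ (2 * (2 + k)) + 1))).and (Filter.eventually_ge_atTop k))).exists
  refine ⟨j k, happ k, ?_⟩
  have hfar := hl1 (hns (φ l))
  rw [show Affine.Point.some x y hP - j k • g =
    (j (φ l + 1) - j k) • g - (j (φ l + 1) • g - Affine.Point.some x y hP) by module, hQ]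
  refine sub_mem (hstep (((hl2.trans (hφ.id_le l)).trans (Nat.le_succ _)))) ?_
  exact (mem_lev hI).2 (hfar.imp_right fun h => (lt_add_one _).trans_le h)

/-- **Lutz's theorem.** -/
theorem exists_equiv : ∃ e : lev hI 2 ≃+ ℤ_[p], e ⟨g, h1⟩ = 1 := by
  choose f hf using fun P : lev hI 2 => exists_near hI h1 h2 P.2
  have hadd : ∀ P Q, f (P + Q) = f P + f Q := fun P Q =>
    near_unique hI h1 h2 (hf (P + Q)) fun k j hj => by
      set i : ℤ := ((f P).appr k : ℤ)
      have hi : ‖(i : ℤ_[p]) - f P‖ ≤ (p : ℝ) ^ (-k : ℤ) := by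
        rw [Int.cast_natCast, norm_sub_rev, PadicInt.norm_le_pow_iff_mem_span_pow]
        exact PadicInt.appr_spec k _
      have hji : ‖((j - i : ℤ) : ℤ_[p]) - f Q‖ ≤ (p : ℝ) ^ (-k : ℤ) := by
        rw [Int.cast_sub, show (j : ℤ_[p]) - i - f Q =
          ((j : ℤ_[p]) - (f P + f Q)) + -((i : ℤ_[p]) - f P) by ring]
        exact (PadicInt.nonarchimedean _ _).trans (max_le hj (by rwa [norm_neg]))
      rw [AddSubgroup.coe_add, show (P : W.toAffine.Point) + Q - j • g =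
        ((P : W.toAffine.Point) - i • g) + ((Q : W.toAffine.Point) - (j - i) • g) by module]
      exact add_mem (hf P k i hi) (hf Q k _ hji)
  set F := AddMonoidHom.mk' f hadd
  have hinj : Function.Injective F := (injective_iff_map_eq_zero F).2 fun P hP => Subtype.ext <|
    eq_zero_of_forall_lev hI fun n => by
      have h := hf P n 0 (by
        rw [show f P = 0 from hP]; simp only [Int.cast_zero, sub_zero, norm_zero]; positivity)
      rw [zero_zsmul, sub_zero] at h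
      exact lev_antitone hI (by omega) h
  have hunit : ∀ a : ℤ_[p], ‖a‖ = 1 → a ∈ F.range := fun a ha => by
    obtain ⟨P, hP, hPa⟩ := exists_point_of_unit hI h1 h2 ha
    exact ⟨⟨P, hP⟩, near_unique hI h1 h2 (hf ⟨P, hP⟩) hPa⟩
  have hsurj : Function.Surjective F := fun a => by
    rcases (PadicInt.norm_le_one a).eq_or_lt with ha | ha
    · exact hunit a ha
    · rw [← sub_add_cancel a 1]
      refine F.range.add_mem (hunit _ ?_) (hunit _ norm_one)
      rw [sub_eq_add_neg, IsUltrametricDist.norm_add_eq_max_of_norm_ne_norm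
        (by rw [norm_neg, norm_one]; exact ha.ne), norm_neg, norm_one, max_eq_right ha.le]
  refine ⟨AddEquiv.ofBijective F ⟨hinj, hsurj⟩, near_unique hI h1 h2 (hf ⟨g, h1⟩) ?_⟩
  refine near_of hI h1 h2 fun k => ⟨1, ?_, ?_⟩
  · simp only [Int.cast_one, sub_self, norm_zero]; positivity
  · rw [one_zsmul, sub_self]; exact zero_mem _

omit hI h1 h2 in
/-- Every elliptic curve over `ℚ_p` has a subgroup of finite index isomorphic to `ℤ_p`. -/
theorem exists_lutz (V : WeierstrassCurve ℚ_[p]) [V.IsElliptic] :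
    ∃ H : AddSubgroup V.toAffine.Point, H.index ≠ 0 ∧ Nonempty (H ≃+ ℤ_[p]) := by
  set M := max (max (max ‖V.a₁‖ ‖V.a₂‖) (max ‖V.a₃‖ ‖V.a₄‖)) ‖V.a₆‖
  obtain ⟨n, hn⟩ := pow_unbounded_of_one_lt M (Nat.one_lt_cast.2 hp.out.one_lt : (1 : ℝ) < p)
  have hq : ‖(p : ℚ_[p]) ^ n‖ ≤ 1 := by
    rw [norm_pow]; exact pow_le_one₀ (norm_nonneg _) norm_p_lt.le
  have hle : ∀ {a : ℚ_[p]} {k : ℕ}, ‖a‖ ≤ M → k ≠ 0 →
      NormedField.valuation (((p : ℚ_[p]) ^ n) ^ k * a) ≤ 1 := fun {a k} ha hk => by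
    show ‖((p : ℚ_[p]) ^ n) ^ k * a‖ ≤ 1
    rw [norm_mul, norm_pow]
    refine (mul_le_mul_of_nonneg_right (pow_le_of_le_one (norm_nonneg _) hq hk)
      (norm_nonneg _)).trans ?_
    rw [norm_pow, Padic.norm_p, inv_pow, inv_mul_le_iff₀ (pow_pos (Nat.cast_pos.2 hp.out.pos) n),
      mul_one]
    exact ha.trans hn.le
  obtain ⟨c1, c2, c3, c4, c6⟩ := scale_coeffs (W := V) n
  have hV : IntCoeff (NormedField.valuation (K := ℚ_[p])) (scaleC (p := p) n • V).toAffine := by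
    refine ⟨?_, ?_, ?_, ?_, ?_⟩
    · rw [show (scaleC (p := p) n • V).toAffine.a₁ = _ from c1, ← pow_one ((p : ℚ_[p]) ^ n)]
      exact hle (by simp [M]) one_ne_zero
    · rw [show (scaleC (p := p) n • V).toAffine.a₂ = _ from c2]
      exact hle (by simp [M]) two_ne_zero
    · rw [show (scaleC (p := p) n • V).toAffine.a₃ = _ from c3]
      exact hle (by simp [M]) three_ne_zero
    · rw [show (scaleC (p := p) n • V).toAffine.a₄ = _ from c4]
      exact hle (by simp [M]) four_ne_zero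
    · rw [show (scaleC (p := p) n • V).toAffine.a₆ = _ from c6]
      exact hle (by simp [M]) (by norm_num)
  obtain ⟨y, h, ha, hb⟩ := exists_generator hV
  obtain ⟨e, -⟩ := exists_equiv hV ha hb
  set f := FA.Frob.vcEquiv (scaleC (p := p) n) (rfl : scaleC n • V = _)
  refine ⟨(lev hV 2).map f.toAddMonoidHom, ?_, ⟨(f.addSubgroupMap _).symm.trans e⟩⟩
  rw [show ((lev hV 2).map f.toAddMonoidHom).index = (lev hV 2).index from
    AddSubgroup.index_map_equiv _ f]
  exact lev_index_ne_zero hV 2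

end FA.LocalPts
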