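import Fermat.Agent.KummerDeRham.Global
import Fermat.Agent.LocalPts.Descend
import Fermat.Agent.LocalPts.Lutz

/-!
# Local Kummer classes

The Kummer class of an algebraic point of `E (ℚ_p)` is a coboundary on an open subgroup of the
Galois group of `ℚ_p` if and only if the point is torsion, and up to coboundaries all these classes
are multiples of one.
-/

set_option autoImplicit false
set_option linter.unusedSectionVars false

noncomputable section

open Filter Topology Matrix WeierstrassCurve FA.TateSen FA.BDR FA.PadicHodge FA.Frob FA.EC FA.Local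
  FA.RT.Tate FA.CurveDR FA.DRCoh FA.KDR
open scoped WeierstrassCurve.Affine Classical

namespace FA.LocalPts

variable {p : ℕ} [hp : Fact p.Prime] {W : WeierstrassCurve ℤ} [(ratCurve W).IsElliptic]
  {B : TateBasis p W}

local notation "Cl" => PadicAlgCl p
local notation "GQ" => AlgebraicClosure ℚ ≃ₐ[ℚ] AlgebraicClosure ℚ
local notation "G" => PadicAlgCl p ≃ₐ[ℚ_[p]] PadicAlgCl p

/-- **A class split on an open subgroup comes from a torsion point.** -/
theorem isOfFinAddOrder_of_coboundary {Q : ℕ → Pts W} (hQ : IsLocalSys p Q)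
    {H : Subgroup (PadicAlgCl p ≃ₐ[ℚ_[p]] PadicAlgCl p)}
    (hH : IsOpen (H : Set (PadicAlgCl p ≃ₐ[ℚ_[p]] PadicAlgCl p))) {v : Fin 2 → ℚ_[p]}
    (hv : ∀ τ ∈ H, (kummerClass B hQ).1 τ = curveAtP B τ *ᵥ v - v) :
    IsOfFinAddOrder (Q 0) := by
  obtain ⟨L, hLf, hLH⟩ := (krullTopology_mem_nhds_one_iff ℚ_[p] (PadicAlgCl p) _).1
    (hH.mem_nhds H.one_mem)
  obtain ⟨k, w, hw⟩ := exists_pow_mul_eq v
  set S : ℕ → Pts W := fun n => p ^ k • Q n - B.φ n w
  have hS : ∀ n, ∀ τ ∈ L.fixingSubgroup, localGaloisToGlobal p τ • S n = S n := by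
    intro n τ hτ
    set σ := localGaloisToGlobal p τ
    have hc : p ^ k • kummerVec B Q σ + w = B.rep σ *ᵥ w := funext fun i => by
      apply Subtype.val_injective
      have h1 : ((kummerVec B Q σ i : ℤ_[p]) : ℚ_[p]) = (curveAtP B τ *ᵥ v) i - v i :=
        congrFun (hv τ (hLH hτ)) i
      have h2 := congrFun (coe_rep_mulVec B τ w) i
      rw [show (fun j => ((w j : ℤ_[p]) : ℚ_[p])) = (p : ℚ_[p]) ^ k • v from funext fun j => hw j,
        Matrix.mulVec_smul, Pi.smul_apply, smul_eq_mul] at h2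
      rw [Pi.add_apply, Pi.smul_apply, nsmul_eq_mul, PadicInt.coe_add, PadicInt.coe_mul, hw,
        PadicInt.coe_natCast, Nat.cast_pow, h1]
      rw [h2]
      ring
    have hσ : σ • Q n = Q n + B.φ n (kummerVec B Q σ) :=
      eq_add_of_sub_eq' (kummerVec_spec hQ.div (hQ.fixed τ) n).symm
    show σ • (p ^ k • Q n - B.φ n w) = _
    rw [smul_sub, gal_smul_nsmul, hσ, nsmul_add, B.rep_spec, ← hc, map_add, map_nsmul]
    show _ = p ^ k • Q n - B.φ n w
    abel
  choose T hT using fun n => exists_descend L (hS n)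
  obtain ⟨T₀, hT₀⟩ := exists_descend L (Q := Q 0) fun τ _ => hQ.fixed τ
  have hTn : ∀ n, p ^ n • T n = p ^ k • T₀ := fun n => by
    refine mapHom_injective L.val.toRingHom (map_atField _) ?_
    rw [map_nsmul, map_nsmul, hT, hT₀, ← map_nsmul, ← map_nsmul]
    show toLocal p (p ^ n • (p ^ k • Q n - B.φ n w)) = _
    rw [nsmul_sub, B.nsmul_phi, sub_zero, smul_comm, hQ.div.pow_nsmul]
  have : FiniteDimensional ℚ_[p] L := hLf
  have : ProperSpace L := FiniteDimensional.proper ℚ_[p] L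
  have : IsUltrametricDist L := IsUltrametricDist.of_normedAlgebra ℚ_[p]
  have hpL : ‖(p : L)‖ < 1 := by
    rw [← map_natCast (algebraMap ℚ_[p] L), norm_algebraMap', Padic.norm_p]
    exact inv_lt_one_of_one_lt₀ (Nat.one_lt_cast.2 hp.out.one_lt)
  have h := nsmul_index_eq_zero_of_divisible (intCoeff_atField (W := W) L) hp.out hpL
    (P := p ^ k • T₀) fun n => ⟨T n, hTn n⟩
  rw [← mul_nsmul'] at h
  refine isOfFinAddOrder_iff_nsmul_eq_zero.2
    ⟨(e1Subgroup (intCoeff_atField (W := W) L)).index * p ^ k, Nat.pos_of_ne_zero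
      (mul_ne_zero (e1_index_ne_zero _) (pow_ne_zero _ hp.out.ne_zero)),
      toLocal_injective (p := p) ?_⟩
  rw [map_nsmul, ← hT₀, ← map_nsmul, h, map_zero, map_zero]

/-- **The class of a torsion point is a coboundary.** -/
theorem exists_coboundary_of_isOfFinAddOrder {Q : ℕ → Pts W} (hQ : IsLocalSys p Q)
    (h : IsOfFinAddOrder (Q 0)) :
    ∃ v : Fin 2 → ℚ_[p], ∀ τ, (kummerClass B hQ).1 τ = curveAtP B τ *ᵥ v - v := by
  obtain ⟨N, hN, hN0⟩ := isOfFinAddOrder_iff_nsmul_eq_zero.1 h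
  obtain ⟨v, hv⟩ := kummerClass_change B (hQ.nsmul 0) (hQ.nsmul N) (by
    rw [Pi.smul_apply, Pi.smul_apply, hN0, zero_nsmul])
  refine ⟨(N : ℚ_[p])⁻¹ • v, fun τ => ?_⟩
  have h1 := hv τ
  rw [kummerClass_nsmul B hQ, kummerClass_nsmul B hQ, zero_nsmul, sub_zero] at h1
  have h2 : (N : ℚ_[p]) • (kummerClass B hQ).1 τ = curveAtP B τ *ᵥ v - v := by
    rw [Nat.cast_smul_eq_nsmul]; exact h1
  rw [Matrix.mulVec_smul, ← smul_sub, ← h2, inv_smul_smul₀ (Nat.cast_ne_zero.2 hN.ne')]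

variable (p W) in
/-- There is an algebraic point of infinite order with abscissa `p ^ (-6)`, and the points over
`ℚ_p` deep in the kernel of reduction are its multiples by `ℤ_p`. -/
theorem exists_base : ∃ (P₀ : Pts W) (T₀ : (atField W ℚ_[p]).toAffine.Point)
    (h₀ : T₀ ∈ lev (intCoeff_atField (W := W) ℚ_[p]) 2)
    (e : lev (intCoeff_atField (W := W) ℚ_[p]) 2 ≃+ ℤ_[p]),
    mapHom (algebraMap ℚ_[p] (PadicAlgCl p)) (map_atField _) T₀ = toLocal p P₀ ∧
      e ⟨T₀, h₀⟩ = 1 ∧ ¬ IsOfFinAddOrder P₀ := by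
  have hI := intCoeff_atField (W := W) ℚ_[p]
  obtain ⟨y, h, h1, h2⟩ := exists_generator hI
  obtain ⟨e, he⟩ := exists_equiv hI h1 h2
  have hx : algebraMap ℚ_[p] (PadicAlgCl p) (((p : ℚ_[p]) ^ 6)⁻¹) =
      padicEmbedding p (((p : AlgebraicClosure ℚ) ^ 6)⁻¹) := by
    simp
  have hn := nonsingular_mapHom (algebraMap ℚ_[p] (PadicAlgCl p)) (map_atField (W := W) _) h
  have hn' : (atField W (PadicAlgCl p)).toAffine.Nonsingular
      (padicEmbedding p (((p : AlgebraicClosure ℚ) ^ 6)⁻¹))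
      (algebraMap ℚ_[p] (PadicAlgCl p) y) := hx ▸ hn
  obtain ⟨P₀, hP₀⟩ := exists_toLocal_of_xc hn'
  refine ⟨P₀, _, h1, e, ?_, he, fun hfin => ?_⟩
  · rw [hP₀, mapHom_some]
    exact (Affine.Point.some.injEq ..).mpr ⟨hx, rfl⟩
  · obtain ⟨N, hN, hN0⟩ := isOfFinAddOrder_iff_nsmul_eq_zero.1 hfin
    have h3 : N • (⟨_, h1⟩ : lev hI 2) = 0 := by
      refine Subtype.ext (mapHom_injective (algebraMap ℚ_[p] (PadicAlgCl p)) (map_atField _) ?_)
      rw [AddSubgroup.coe_nsmul, map_nsmul, ZeroMemClass.coe_zero, map_zero,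
        show mapHom (algebraMap ℚ_[p] (PadicAlgCl p)) (map_atField (W := W) _)
          (Affine.Point.some _ y h) = toLocal p P₀ from by
          rw [hP₀, mapHom_some]; exact (Affine.Point.some.injEq ..).mpr ⟨hx, rfl⟩,
        ← map_nsmul, hN0, map_zero]
    have h4 := congrArg e h3
    rw [map_nsmul, he, map_zero, nsmul_one] at h4
    exact hN.ne' (Nat.cast_eq_zero.1 h4)

/-- **All classes are multiples of one**, up to coboundaries. -/
theorem exists_line (B : TateBasis p W) : ∃ (Q₀ : ℕ → Pts W) (hQ₀ : IsLocalSys p Q₀),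
    ¬ IsOfFinAddOrder (Q₀ 0) ∧ ∀ (Q : ℕ → Pts W) (hQ : IsLocalSys p Q),
      ∃ (a : ℚ_[p]) (v : Fin 2 → ℚ_[p]), ∀ τ, (kummerClass B hQ).1 τ =
        a • (kummerClass B hQ₀).1 τ + (curveAtP B τ *ᵥ v - v) := by
  obtain ⟨P₀, T₀, h₀, e, hT₀, he, hP₀⟩ := exists_base p W
  obtain ⟨Q₀, hQ₀, hQ₀0⟩ := exists_divSys p P₀
  have hL₀ : IsLocalSys p Q₀ :=
    ⟨hQ₀, fun τ => by rw [hQ₀0]; exact smul_eq_of_toLocal hT₀ τ⟩
  refine ⟨Q₀, hL₀, hQ₀0.symm ▸ hP₀, fun Q hQ => ?_⟩
  obtain ⟨T, hT⟩ := exists_descend_padic (Q := Q 0) hQ.fixed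
  set N := (lev (intCoeff_atField (W := W) ℚ_[p]) 2).index
  set β : ℤ_[p] := e ⟨N • T, (lev (intCoeff_atField (W := W) ℚ_[p]) 2).nsmul_index_mem T⟩
  have hstep : ∀ k : ℕ, ∃ (w : Fin 2 → ℤ_[p]), ∀ (τ : G) (i : Fin 2),
      ‖(N : ℤ_[p]) * kummerVec B Q (localGaloisToGlobal p τ) i -
        β * kummerVec B Q₀ (localGaloisToGlobal p τ) i -
        ((B.rep (localGaloisToGlobal p τ) *ᵥ w) i - w i)‖ ≤ (p : ℝ) ^ (-k : ℤ) := by
    intro k
    set a := (-β).appr k
    obtain ⟨d, hd⟩ : ∃ d, -β - (a : ℤ_[p]) = (p : ℤ_[p]) ^ k * d :=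
      Ideal.mem_span_singleton'.1 (PadicInt.appr_spec k (-β)) |>.imp fun d hd => by
        rw [← hd, mul_comm]
    set U : lev (intCoeff_atField (W := W) ℚ_[p]) 2 :=
      ⟨N • T, AddSubgroup.nsmul_index_mem _ T⟩ + a • ⟨T₀, h₀⟩
    set R := e.symm (-d)
    have hU : U = p ^ k • R := by
      refine e.injective ?_
      rw [map_add, map_nsmul, map_nsmul, he, AddEquiv.apply_symm_apply, nsmul_one, nsmul_eq_mul,
        Nat.cast_pow]
      show β + (a : ℤ_[p]) = _
      linear_combination -hd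
    set j := mapHom (algebraMap ℚ_[p] (PadicAlgCl p)) (map_atField (W := W) (algebraMap ℚ_[p] Cl))
    have hUj : p ^ k • j R = toLocal p (N • Q 0 + a • P₀) := by
      rw [← map_nsmul, ← AddSubgroup.coe_nsmul, ← hU]
      show j (N • T + a • T₀) = _
      rw [map_add, map_nsmul, map_nsmul, map_add, map_nsmul, map_nsmul, hT, hT₀]
    obtain ⟨R', hR'⟩ := exists_toLocal_of_nsmul (pow_ne_zero k hp.out.ne_zero) hUj
    obtain ⟨QR, hQR, hQR0⟩ := exists_divSys p R'
    have hfR : ∀ τ : G, localGaloisToGlobal p τ • QR 0 = QR 0 := fun τ => by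
      rw [hQR0]; exact smul_eq_of_toLocal hR'.symm τ
    have h0 : (N • Q + a • Q₀) 0 = (p ^ k • QR) 0 := by
      refine toLocal_injective (p := p) ?_
      rw [Pi.add_apply, Pi.smul_apply, Pi.smul_apply, Pi.smul_apply, hQ₀0, hQR0, ← hUj,
        map_nsmul, hR']
    obtain ⟨w, hw⟩ := exists_change (B := B) (hQR.nsmul (p ^ k))
      ((hQ.div.nsmul N).add (hQ₀.nsmul a)) h0
    refine ⟨w, fun τ i => ?_⟩
    set σ := localGaloisToGlobal p τ
    have f0 : σ • (p ^ k • QR) 0 = (p ^ k • QR) 0 := by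
      rw [Pi.smul_apply, gal_smul_nsmul, hfR]
    have h1 := congrFun (hw σ f0) i
    rw [kummerVec_add (hQ.div.nsmul N) (hQ₀.nsmul a)
      (by rw [Pi.smul_apply, gal_smul_nsmul, hQ.fixed])
      (by rw [Pi.smul_apply, gal_smul_nsmul, hL₀.fixed]), kummerVec_nsmul hQ.div (hQ.fixed τ),
      kummerVec_nsmul hQ₀ (hL₀.fixed τ), kummerVec_nsmul hQR (hfR τ)] at h1
    simp only [Pi.add_apply, Pi.sub_apply, nsmul_eq_mul, Pi.mul_apply, Pi.natCast_apply,
      Nat.cast_pow, Pi.pow_apply] at h1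
    rw [PadicInt.norm_le_pow_iff_mem_span_pow, Ideal.mem_span_singleton]
    refine ⟨kummerVec B QR σ i + d * kummerVec B Q₀ σ i, ?_⟩
    linear_combination h1 + (kummerVec B Q₀ σ i) * hd
  choose w hw using hstep
  obtain ⟨v, -, φ, hφ, hlim⟩ := isCompact_univ.tendsto_subseq
    (x := w) fun _ => Set.mem_univ _
  have hzero : ∀ (τ : G) (i : Fin 2),
      (N : ℤ_[p]) * kummerVec B Q (localGaloisToGlobal p τ) i -
        β * kummerVec B Q₀ (localGaloisToGlobal p τ) i -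
        ((B.rep (localGaloisToGlobal p τ) *ᵥ v) i - v i) = 0 := by
    intro τ i
    set F : (Fin 2 → ℤ_[p]) → ℤ_[p] := fun u =>
      (N : ℤ_[p]) * kummerVec B Q (localGaloisToGlobal p τ) i -
        β * kummerVec B Q₀ (localGaloisToGlobal p τ) i -
        ((B.rep (localGaloisToGlobal p τ) *ᵥ u) i - u i)
    have hF : Continuous F := by
      simp only [F, Matrix.mulVec, dotProduct]
      fun_prop
    have ht : Tendsto (fun l => F (w (φ l))) atTop (𝓝 0) := by
      refine squeeze_zero_norm' (a := fun l => ((p : ℝ)⁻¹) ^ l) (Eventually.of_forall fun l => ?_)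
        (tendsto_pow_atTop_nhds_zero_of_lt_one (by positivity)
          (inv_lt_one_of_one_lt₀ (Nat.one_lt_cast.2 hp.out.one_lt)))
      refine (hw (φ l) τ i).trans ?_
      rw [_root_.inv_pow, ← zpow_natCast, ← _root_.zpow_neg]
      exact zpow_le_zpow_right₀ (Nat.one_le_cast.2 hp.out.one_le)
        (neg_le_neg (Int.ofNat_le.2 (hφ.id_le l)))
    exact tendsto_nhds_unique ((hF.tendsto v).comp hlim) ht
  refine ⟨(β : ℚ_[p]) / N, (N : ℚ_[p])⁻¹ • fun i => ((v i : ℤ_[p]) : ℚ_[p]),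
    fun τ => funext fun i => ?_⟩
  have hN : (N : ℚ_[p]) ≠ 0 :=
    Nat.cast_ne_zero.2 (lev_index_ne_zero (intCoeff_atField (W := W) ℚ_[p]) 2)
  have h1 := congrArg (fun z : ℤ_[p] => (z : ℚ_[p])) (hzero τ i)
  have h2 := congrFun (coe_rep_mulVec B τ v) i
  simp only [PadicInt.coe_sub, PadicInt.coe_mul, PadicInt.coe_natCast, PadicInt.coe_zero] at h1
  beta_reduce at h2
  rw [Matrix.mulVec_smul, Pi.add_apply, Pi.sub_apply, Pi.smul_apply, Pi.smul_apply, Pi.smul_apply,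
    ← h2]
  show kummerAt B Q τ i = _ • kummerAt B Q₀ τ i + _
  simp only [kummerAt, smul_eq_mul]
  field_simp
  linear_combination h1

end FA.LocalPts
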