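import Fermat.Agent.LocalPts.Multiply
import Mathlib.Analysis.Normed.Group.Ultra
import Mathlib.GroupTheory.Index

/-!
# The kernel of reduction has finite index

Points near a given point differ from it by a point with large abscissa. In a locally compact
nonarchimedean field the points with bounded abscissa form a compact set, so finitely many
translates of any neighbourhood of the origin cover all points.
-/

set_option autoImplicit false
set_option linter.unusedSectionVars false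

noncomputable section

open Filter Topology WeierstrassCurve FA.EC FA.Local

namespace FA.LocalPts

variable {L : Type*} [NormedField L] [DecidableEq L] {W : WeierstrassCurve L}

/-- Zero, or abscissa of norm at least `C`. -/
def Far (C : ℝ) (P : W.toAffine.Point) : Prop := P = 0 ∨ C ≤ ‖xc P‖

theorem eventually_far {x₀ y₀ : L} (h₀ : W.toAffine.Nonsingular x₀ y₀) (C : ℝ) :
    ∀ᶠ q : L × L in 𝓝 (x₀, y₀), ∀ h : W.toAffine.Nonsingular q.1 q.2,
      Far C (Affine.Point.some q.1 q.2 h - Affine.Point.some x₀ y₀ h₀) := by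
  set K := ‖W.a₂‖ + (‖x₀‖ + 1) + ‖x₀‖
  set M := max (‖W.a₁‖ + 1) (C + K) with hM
  set c := fy W.toAffine x₀ y₀ with hc
  have hlam : ∀ᶠ q : L × L in 𝓝 (x₀, y₀), W.toAffine.Nonsingular q.1 q.2 →
      ¬ (q.1 = x₀ ∧ q.2 = W.toAffine.negY x₀ (W.toAffine.negY x₀ y₀)) →
        M < ‖W.toAffine.slope q.1 x₀ q.2 (W.toAffine.negY x₀ y₀)‖ := by
    by_cases hc0 : c = 0
    · have hg : fx W.toAffine x₀ y₀ ≠ 0 := fun hg => by
        have h2 := (Affine.nonsingular_iff _ _).1 h₀
        simp only [hc, fx, fy] at hc0 hg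
        exact h2.2.elim (fun h => h (by linear_combination -hg))
          (fun h => h (by linear_combination hc0))
      have hneg : W.toAffine.negY x₀ y₀ = y₀ := by
        simp only [hc, fy, Affine.negY] at hc0 ⊢
        linear_combination -hc0
      have hev : ∀ᶠ q : L × L in 𝓝 (x₀, y₀),
          M * ‖q.2 - y₀ + W.a₁ * (q.1 - x₀)‖ < ‖q.1 ^ 2 + q.1 * x₀ + x₀ ^ 2 +
            W.a₂ * (q.1 + x₀) + W.a₄ - W.a₁ * y₀‖ := by
        refine ContinuousAt.eventually_lt (f := fun q : L × L =>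
          M * ‖q.2 - y₀ + W.a₁ * (q.1 - x₀)‖) (g := fun q : L × L => ‖q.1 ^ 2 + q.1 * x₀ +
            x₀ ^ 2 + W.a₂ * (q.1 + x₀) + W.a₄ - W.a₁ * y₀‖) (by fun_prop) (by fun_prop) ?_
        simp only [sub_self, mul_zero, add_zero, norm_zero]
        refine norm_pos_iff.2 fun h => hg ?_
        simp only [fx]
        linear_combination h
      filter_upwards [hev] with q hq hns hne
      rw [hneg] at hne ⊢
      rw [hneg] at hne
      have hx : q.1 ≠ x₀ := fun hx => by
        refine hne ⟨hx, ?_⟩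
        rcases Affine.Y_eq_of_X_eq hns.1 h₀.1 hx with h | h
        · exact h
        · rwa [hneg] at h
      rw [Affine.slope_of_X_ne hx]
      have e : (q.2 - y₀) / (q.1 - x₀) * (q.2 - y₀ + W.a₁ * (q.1 - x₀)) =
          q.1 ^ 2 + q.1 * x₀ + x₀ ^ 2 + W.a₂ * (q.1 + x₀) + W.a₄ - W.a₁ * y₀ := by
        have h1 := chord_identity hns.1 h₀.1
        have hd : q.1 - x₀ ≠ 0 := sub_ne_zero.2 hx
        have h2 : W.a₁ * x₀ + W.a₃ = -(2 * y₀) := by
          simp only [hc, fy] at hc0; linear_combination hc0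
        field_simp
        linear_combination h1 - (q.2 - y₀) * h2
      rw [← e, norm_mul] at hq
      exact lt_of_mul_lt_mul_right hq (norm_nonneg _)
    · have hev : ∀ᶠ q : L × L in 𝓝 (x₀, y₀),
          M * ‖q.1 - x₀‖ < ‖q.2 - W.toAffine.negY x₀ y₀‖ := by
        refine ContinuousAt.eventually_lt (f := fun q : L × L => M * ‖q.1 - x₀‖)
          (g := fun q : L × L => ‖q.2 - W.toAffine.negY x₀ y₀‖) (by fun_prop) (by fun_prop) ?_
        simp only [sub_self, norm_zero, mul_zero]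
        refine norm_pos_iff.2 fun h => hc0 ?_
        simp only [Affine.negY] at h
        simp only [hc, fy]
        linear_combination h
      filter_upwards [hev] with q hq hns hne
      have hx : q.1 ≠ x₀ := fun hx => by
        rcases Affine.Y_eq_of_X_eq hns.1 h₀.1 hx with h | h
        · exact hne ⟨hx, by rw [Affine.negY_negY]; exact h⟩
        · simp [hx, h] at hq
      rw [Affine.slope_of_X_ne hx, norm_div, lt_div_iff₀ (norm_pos_iff.2 (sub_ne_zero.2 hx))]
      exact hq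
  have hK : ∀ᶠ q : L × L in 𝓝 (x₀, y₀), ‖q.1‖ < ‖x₀‖ + 1 :=
    ContinuousAt.eventually_lt (f := fun q : L × L => ‖q.1‖) (g := fun _ => ‖x₀‖ + 1)
      (by fun_prop) (by fun_prop) (lt_add_one _)
  filter_upwards [hlam, hK] with q hl hq h
  rw [sub_eq_add_neg, Affine.Point.neg_some]
  by_cases hxy : q.1 = x₀ ∧ q.2 = W.toAffine.negY x₀ (W.toAffine.negY x₀ y₀)
  · exact Or.inl (Affine.Point.add_of_Y_eq hxy.1 hxy.2)
  rw [Affine.Point.add_some hxy]
  refine Or.inr ?_
  rw [xc_some, Affine.addX]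
  set l := W.toAffine.slope q.1 x₀ q.2 (W.toAffine.negY x₀ y₀)
  have hlM := hl h hxy
  have h1 : ‖W.a₁‖ + 1 ≤ ‖l‖ := (le_max_left _ _).trans hlM.le
  have h2 : C + K ≤ ‖l‖ := (le_max_right _ _).trans hlM.le
  have h3 : ‖l ^ 2‖ ≤ ‖l ^ 2 + W.a₁ * l - W.a₂ - q.1 - x₀‖ +
      ‖W.a₁ * l - W.a₂ - q.1 - x₀‖ := by
    have := norm_sub_le (l ^ 2 + W.a₁ * l - W.a₂ - q.1 - x₀) (W.a₁ * l - W.a₂ - q.1 - x₀)
    rwa [show l ^ 2 + W.a₁ * l - W.a₂ - q.1 - x₀ - (W.a₁ * l - W.a₂ - q.1 - x₀) = l ^ 2 by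
      ring] at this
  have h4 : ‖W.a₁ * l - W.a₂ - q.1 - x₀‖ ≤ ‖W.a₁‖ * ‖l‖ + ‖W.a₂‖ + ‖q.1‖ + ‖x₀‖ := by
    refine (norm_sub_le _ _).trans (add_le_add ?_ le_rfl)
    refine (norm_sub_le _ _).trans (add_le_add ?_ le_rfl)
    refine (norm_sub_le _ _).trans (add_le_add (le_of_eq (norm_mul _ _)) le_rfl)
  rw [norm_pow] at h3
  nlinarith [norm_nonneg l]

variable [IsUltrametricDist L]

theorem norm_snd_le (hI : IntCoeff (NormedField.valuation (K := L)) W.toAffine) {x y : L}
    (h : W.toAffine.Equation x y) {R : ℝ} (hR : 1 ≤ R) (hx : ‖x‖ ≤ R) : ‖y‖ ≤ R ^ 2 := by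
  rcases le_or_gt ‖x‖ 1 with h1 | h1
  · exact le_trans (by exact_mod_cast le_y_of_le_x hI h (by exact_mod_cast h1))
      (one_le_pow₀ hR)
  · have h2 : ‖y‖ ^ 2 = ‖x‖ ^ 3 := by
      simpa [NormedField.valuation_apply] using congrArg NNReal.toReal
        (large_of_one_lt hI h (by exact_mod_cast h1)).2
    refine le_of_pow_le_pow_left₀ two_ne_zero (by positivity) ?_
    rw [h2, ← pow_mul]
    exact (pow_le_pow_left₀ (norm_nonneg _) hx 3).trans (pow_le_pow_right₀ hR (by norm_num))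

/-- **Finitely many translates** of every neighbourhood of zero cover the points. -/
theorem exists_finite_cover [ProperSpace L] [W.IsElliptic]
    (hI : IntCoeff (NormedField.valuation (K := L)) W.toAffine) (C : ℝ) :
    ∃ T : Set W.toAffine.Point, T.Finite ∧ ∀ P, ∃ Q ∈ T, Far C (P - Q) := by
  set R := max C 1
  set S := {q : L × L | W.toAffine.Equation q.1 q.2} ∩
    (Metric.closedBall (0 : L) R ×ˢ Metric.closedBall (0 : L) (R ^ 2))
  have hS : IsCompact S := by
    refine ((isCompact_closedBall _ _).prod (isCompact_closedBall _ _)).inter_left ?_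
    simp only [Affine.equation_iff]
    exact isClosed_eq (by fun_prop) (by fun_prop)
  have hns : ∀ q : L × L, q ∈ S → W.toAffine.Nonsingular q.1 q.2 := fun q hq =>
    Affine.equation_iff_nonsingular.1 hq.1
  set U : L × L → Set (L × L) := fun c => {q | ∀ hc : c ∈ S, ∀ h : W.toAffine.Nonsingular q.1 q.2,
    Far C (Affine.Point.some q.1 q.2 h - Affine.Point.some c.1 c.2 (hns c hc))}
  obtain ⟨t, ht, hcov⟩ := hS.elim_nhds_subcover U fun c hc =>
    (eventually_far (hns c hc) C).mono fun q hq _ => hq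
  refine ⟨insert 0 (Set.range fun c : t =>
      Affine.Point.some c.1.1 c.1.2 (hns c.1 (ht c.1 c.2))), (Set.finite_range _).insert _,
    fun P => ?_⟩
  rcases P with _ | ⟨x, y, h⟩
  · exact ⟨0, Set.mem_insert _ _, Or.inl (sub_zero _)⟩
  rcases lt_or_ge R ‖x‖ with hx | hx
  · refine ⟨0, Set.mem_insert _ _, Or.inr ?_⟩
    rw [sub_zero, xc_some]
    exact (le_max_left C 1).trans hx.le
  have hq : (x, y) ∈ S := ⟨h.1, mem_closedBall_zero_iff.2 hx,
    mem_closedBall_zero_iff.2 (norm_snd_le hI h.1 (le_max_right _ _) hx)⟩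
  obtain ⟨c, hc, hcq⟩ := Set.mem_iUnion₂.1 (hcov hq)
  exact ⟨_, Set.mem_insert_of_mem _ ⟨⟨c, hc⟩, rfl⟩, hcq (ht c hc) h⟩

/-- The norms above one are bounded away from one. -/
theorem exists_gap [ProperSpace L] : ∃ r : ℝ, 1 < r ∧ ∀ x : L, 1 < ‖x‖ → r ≤ ‖x‖ := by
  obtain ⟨z, hz, hmax⟩ := ((isCompact_closedBall (0 : L) 1).of_isClosed_subset
    (IsUltrametricDist.isClosed_ball 0 1) Metric.ball_subset_closedBall).exists_isMaxOn
      ⟨0, Metric.mem_ball_self one_pos⟩ continuous_norm.continuousOn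
  have hs : max ‖z‖ (1 / 2) < 1 := max_lt (mem_ball_zero_iff.1 hz) (by norm_num)
  refine ⟨(max ‖z‖ (1 / 2))⁻¹, (one_lt_inv₀ (by positivity)).2 hs, fun x hx => ?_⟩
  have hm : x⁻¹ ∈ Metric.ball (0 : L) 1 := by
    rw [mem_ball_zero_iff, norm_inv]
    exact inv_lt_one_of_one_lt₀ hx
  rw [inv_le_comm₀ (by positivity) (by positivity), ← norm_inv]
  exact (hmax hm).trans (le_max_left _ _)

theorem e1_iff {P : W.toAffine.Point} :
    E1 (NormedField.valuation (K := L)) W.toAffine P ↔ P = 0 ∨ 1 < ‖xc P‖ := by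
  rcases P with _ | ⟨x, y, h⟩
  · exact iff_of_true e1_zero (Or.inl rfl)
  · rw [e1_some, xc_some, or_iff_right (Affine.Point.some_ne_zero h)]
    exact_mod_cast Iff.rfl

/-- **The kernel of reduction has finite index.** -/
theorem e1_index_ne_zero [ProperSpace L] [W.IsElliptic]
    (hI : IntCoeff (NormedField.valuation (K := L)) W.toAffine) :
    (e1Subgroup hI).index ≠ 0 := by
  obtain ⟨T, hT, hcov⟩ := exists_finite_cover hI 2
  have := hT.to_subtype
  have : Finite (W.toAffine.Point ⧸ e1Subgroup hI) := by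
    refine Finite.of_surjective
      (fun Q : T => (QuotientAddGroup.mk Q.1 : W.toAffine.Point ⧸ e1Subgroup hI)) fun a => ?_
    obtain ⟨P, rfl⟩ := QuotientAddGroup.mk_surjective a
    obtain ⟨Q, hQ, h⟩ := hcov P
    refine ⟨⟨Q, hQ⟩, QuotientAddGroup.eq.2 ?_⟩
    rw [mem_e1Subgroup, neg_add_eq_sub, e1_iff]
    exact h.imp_right fun h' => lt_of_lt_of_le one_lt_two h'
  exact AddSubgroup.index_ne_zero_of_finite

end FA.LocalPts
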