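import Fermat.Agent.EC.TorsionCard
import Fermat.Agent.Frob.MapHom
import Fermat.Agent.LocalPts.Near

/-!
# Torsion and infinitely divisible points

Over a locally compact nonarchimedean field of residue characteristic `p` and characteristic zero
the multiplication by `p` pushes the kernel of reduction to the origin at a uniform rate. So it has
no infinitely `p`-divisible point, its torsion is killed by a power of `p`, and the torsion of all
points is finite.
-/

set_option autoImplicit false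
set_option linter.unusedSectionVars false

noncomputable section

open WeierstrassCurve FA.EC FA.Local

namespace FA.LocalPts

/-- The points killed by a natural number not zero in the field are finitely many. -/
theorem finite_killed {F : Type*} [Field F] [DecidableEq F] (V : WeierstrassCurve F) [V.IsElliptic]
    {n : ℕ} (hn : (n : F) ≠ 0) : {P : V.toAffine.Point | n • P = 0}.Finite := by
  classical
  set f := algebraMap F (AlgebraicClosure F)
  have hn' : (n : AlgebraicClosure F) ≠ 0 := by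
    rw [← map_natCast f]
    exact (map_ne_zero f).2 hn
  have hc := natCard_nsmul_eq_zero (V.map f) hn'
  have hfin : Finite {P : (V.map f).toAffine.Point // n • P = 0} :=
    Nat.finite_of_card_ne_zero (by rw [hc]; exact pow_ne_zero 2 (by rintro rfl; simp at hn))
  have h1 : {P : (V.map f).toAffine.Point | n • P = 0}.Finite := Set.finite_coe_iff.1 hfin
  refine (h1.preimage (FA.Frob.mapHom_injective f rfl).injOn).subset fun P hP => ?_
  show n • FA.Frob.mapHom f rfl P = 0
  rw [← map_nsmul, show n • P = 0 from hP, map_zero]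

variable {L : Type*} [NormedField L] [IsUltrametricDist L] [ProperSpace L] [CharZero L]
  [DecidableEq L] {W : WeierstrassCurve L} [W.IsElliptic] {p : ℕ}
  (hI : IntCoeff (NormedField.valuation (K := L)) W.toAffine) (hp : p.Prime)
  (hpL : ‖(p : L)‖ < 1)
include hI hp hpL

/-- Multiplication by `p` expands the abscissae of the kernel of reduction uniformly. -/
theorem exists_factor : ∃ κ : ℝ, 1 < κ ∧ ∀ P : W.toAffine.Point, P ∈ e1Subgroup hI → ∀ k : ℕ,
    p ^ k • P ≠ 0 → κ ^ k < ‖xc (p ^ k • P)‖ := by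
  obtain ⟨r, hr, hgap⟩ := exists_gap (L := L)
  have hp0 : (p : L) ≠ 0 := Nat.cast_ne_zero.2 hp.ne_zero
  have hq : 0 < ‖(p : L)‖ ^ 2 := by positivity
  have hq1 : ‖(p : L)‖ ^ 2 < 1 := pow_lt_one₀ (norm_nonneg _) hpL two_ne_zero
  set κ := min (1 / ‖(p : L)‖ ^ 2) r
  have hκ : 1 < κ := lt_min (by rw [lt_div_iff₀ hq, one_mul]; exact hq1) hr
  refine ⟨κ, hκ, fun P hP k => ?_⟩
  induction k with
  | zero =>
    intro h0
    simp only [pow_zero, one_nsmul] at h0 ⊢
    exact (e1_iff.1 ((mem_e1Subgroup hI).1 hP)).resolve_left h0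
  | succ k ih =>
    intro h0
    rw [pow_succ' p k, mul_nsmul'] at h0 ⊢
    have hk : p ^ k • P ≠ 0 := fun h => h0 (by rw [h, nsmul_zero])
    have h1 := ih hk
    have hx : 1 < ‖xc (p ^ k • P)‖ := (one_le_pow₀ hκ.le).trans_lt h1
    obtain ⟨x, y, h, he⟩ := exists_some_of_ne_zero hk
    rw [he] at h0 h1 hx ⊢
    rw [xc_some] at h1 hx
    refine lt_of_lt_of_le ?_ (min_le_norm_xc_nsmul hI h hx hp.two_le hp0 h0)
    rw [pow_succ' κ k]
    have hm : κ * ‖x‖ ≤ min (‖x‖ / ‖(p : L)‖ ^ 2) (‖x‖ ^ 2) := by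
      refine le_min ?_ ?_
      · rw [div_eq_inv_mul, ← one_div]
        exact mul_le_mul_of_nonneg_right (min_le_left _ _) (norm_nonneg _)
      · rw [sq]
        exact mul_le_mul_of_nonneg_right ((min_le_right _ _).trans (hgap x hx)) (norm_nonneg _)
    exact (mul_lt_mul_of_pos_left h1 (zero_lt_one.trans hκ)).trans_le hm

/-- No point of the kernel of reduction is divisible there by every power of `p`. -/
theorem eq_zero_of_divisible {P : W.toAffine.Point}
    (h : ∀ k : ℕ, ∃ Q ∈ e1Subgroup hI, p ^ k • Q = P) : P = 0 := by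
  by_contra hP
  obtain ⟨κ, hκ, hkey⟩ := exists_factor hI hp hpL
  obtain ⟨k, hk⟩ := pow_unbounded_of_one_lt ‖xc P‖ hκ
  obtain ⟨Q, hQ, hQP⟩ := h k
  have h1 := hkey Q hQ k (hQP ▸ hP)
  rw [hQP] at h1
  exact lt_asymm hk h1

/-- The torsion of the kernel of reduction is killed by a power of `p`. -/
theorem exists_pow_killing : ∃ k : ℕ, ∀ P ∈ e1Subgroup hI, IsOfFinAddOrder P → p ^ k • P = 0 := by
  obtain ⟨κ, hκ, hkey⟩ := exists_factor hI hp hpL
  have hp0 : (p : L) ≠ 0 := Nat.cast_ne_zero.2 hp.ne_zero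
  obtain ⟨k₀, hk₀⟩ := pow_unbounded_of_one_lt (1 / ‖(p : L)‖ ^ 2) hκ
  refine ⟨k₀ + 1, fun P hP hfin => ?_⟩
  obtain ⟨n, hn, hnP⟩ := isOfFinAddOrder_iff_nsmul_eq_zero.1 hfin
  obtain ⟨e, m, hm, rfl⟩ := Nat.exists_eq_pow_mul_and_not_dvd hn.ne' p hp.ne_one
  have h0 : p ^ e • P = 0 := by
    refine eq_zero_of_divisible hI hp hpL fun k => ?_
    have hco : Nat.Coprime (p ^ k) m :=
      Nat.Coprime.pow_left _ (hp.coprime_iff_not_dvd.2 hm)
    refine ⟨Nat.gcdA (p ^ k) m • p ^ e • P,
      zsmul_mem (nsmul_mem hP _) _, ?_⟩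
    have hb := Nat.gcd_eq_gcd_ab (p ^ k) m
    rw [hco.gcd_eq_one] at hb
    conv_rhs => rw [← one_zsmul (p ^ e • P), ← Nat.cast_one, hb, add_zsmul, mul_zsmul,
      mul_zsmul]
    rw [show (m : ℤ) • Nat.gcdB (p ^ k) m • p ^ e • P = 0 by
      rw [smul_comm, natCast_zsmul, ← mul_nsmul', mul_comm, hnP, zsmul_zero], add_zero,
      natCast_zsmul]
  have key : ∀ j, p ^ (j + 1) • P = 0 → k₀ < j → p ^ j • P = 0 := fun j hj hjk => by
    by_contra hne
    have h1 := hkey P hP j hne
    obtain ⟨x, y, h, he⟩ := exists_some_of_ne_zero hne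
    rw [he, xc_some] at h1
    have hx : 1 < ‖x‖ := (one_le_pow₀ hκ.le).trans_lt h1
    have hbig : 1 / ‖(p : L)‖ ^ 2 < ‖x‖ :=
      (hk₀.trans_le (pow_le_pow_right₀ hκ.le hjk.le)).trans h1
    rw [div_lt_iff₀ (by positivity), mul_comm] at hbig
    refine (norm_xc_nsmul hI h hx hp.two_le hbig).1 ?_
    rw [← he, ← mul_nsmul', ← pow_succ', hj]
  have hdown : ∀ d, p ^ (k₀ + 1 + d) • P = 0 → p ^ (k₀ + 1) • P = 0 := fun d => by
    induction d with
    | zero => exact id
    | succ d ih => exact fun hd => ih (key _ hd (by omega))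
  exact hdown e (by rw [pow_add, mul_nsmul', h0, nsmul_zero])

/-- **The torsion is finite.** -/
theorem finite_torsion : {P : W.toAffine.Point | IsOfFinAddOrder P}.Finite := by
  obtain ⟨k, hk⟩ := exists_pow_killing hI hp hpL
  set M := p ^ k * (e1Subgroup hI).index
  have hM : M ≠ 0 := mul_ne_zero (pow_ne_zero _ hp.ne_zero) (e1_index_ne_zero hI)
  refine (finite_killed W (n := M) (Nat.cast_ne_zero.2 hM)).subset fun P hP => ?_
  show M • P = 0
  rw [mul_nsmul', hk _ ((e1Subgroup hI).nsmul_index_mem P) hP.nsmul]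

/-- **A point divisible by every power of `p` is torsion.** -/
theorem nsmul_index_eq_zero_of_divisible {P : W.toAffine.Point}
    (h : ∀ k : ℕ, ∃ Q, p ^ k • Q = P) : (e1Subgroup hI).index • P = 0 :=
  eq_zero_of_divisible hI hp hpL fun k => by
    obtain ⟨Q, hQ⟩ := h k
    exact ⟨_, (e1Subgroup hI).nsmul_index_mem Q, by rw [smul_comm, hQ]⟩

end FA.LocalPts
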