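import Fermat.Agent.Frob.VarChange
import Fermat.Agent.LocalPts.Divisible
import Mathlib.NumberTheory.Padics.ProperSpace

/-!
# The filtration of the points over `ℚ_p`

For `n ≥ 0` the points with abscissa of norm above `p ^ (2 n)` form a subgroup of finite index. From
`n = 1` on multiplication by `p` maps each layer to the next one, and each layer is cyclic of order
`p` modulo the next.
-/

set_option autoImplicit false
set_option linter.unusedSectionVars false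

noncomputable section

open WeierstrassCurve FA.EC FA.Local FA.Frob
open scoped Classical

namespace FA.LocalPts

variable {p : ℕ} [hp : Fact p.Prime]

theorem norm_p_lt : ‖(p : ℚ_[p])‖ < 1 := Padic.norm_p_lt_one

/-- The scaling of level `n`. -/
def scaleC (n : ℕ) : VariableChange ℚ_[p] :=
  ⟨Units.mk0 (((p : ℚ_[p]) ^ n)⁻¹)
      (inv_ne_zero (pow_ne_zero n (Nat.cast_ne_zero.2 hp.out.ne_zero))),
    0, 0, 0⟩

variable {W : WeierstrassCurve ℚ_[p]}

theorem scale_coeffs (n : ℕ) :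
    (scaleC (p := p) n • W).a₁ = (p : ℚ_[p]) ^ n * W.a₁ ∧
    (scaleC (p := p) n • W).a₂ = ((p : ℚ_[p]) ^ n) ^ 2 * W.a₂ ∧
    (scaleC (p := p) n • W).a₃ = ((p : ℚ_[p]) ^ n) ^ 3 * W.a₃ ∧
    (scaleC (p := p) n • W).a₄ = ((p : ℚ_[p]) ^ n) ^ 4 * W.a₄ ∧
    (scaleC (p := p) n • W).a₆ = ((p : ℚ_[p]) ^ n) ^ 6 * W.a₆ := by
  simp [scaleC, variableChange_a₁, variableChange_a₂, variableChange_a₃, variableChange_a₄,
    variableChange_a₆, Units.val_inv_eq_inv_val]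

theorem norm_scaled_lt {n k : ℕ} (hn : n ≠ 0) (hk : k ≠ 0) {a : ℚ_[p]} (ha : ‖a‖ ≤ 1) :
    ‖((p : ℚ_[p]) ^ n) ^ k * a‖ < 1 := by
  rw [norm_mul, norm_pow, norm_pow]
  exact mul_lt_one_of_nonneg_of_lt_one_left (by positivity)
    (pow_lt_one₀ (by positivity) (pow_lt_one₀ (norm_nonneg _) norm_p_lt hn) hk) ha

theorem intCoeff_scale (hI : IntCoeff (NormedField.valuation (K := ℚ_[p])) W.toAffine) (n : ℕ) :
    IntCoeff (NormedField.valuation (K := ℚ_[p])) (scaleC (p := p) n • W).toAffine := by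
  obtain ⟨h1, h2, h3, h4, h6⟩ := scale_coeffs (W := W) n
  have hp1 : NormedField.valuation ((p : ℚ_[p]) ^ n) ≤ 1 := map_pow_le_one (natCast_le_one p) n
  refine ⟨?_, ?_, ?_, ?_, ?_⟩
  · rw [show (scaleC (p := p) n • W).toAffine.a₁ = _ from h1]; exact map_mul_le_one hp1 hI.h₁
  · rw [show (scaleC (p := p) n • W).toAffine.a₂ = _ from h2]
    exact map_mul_le_one (map_pow_le_one hp1 2) hI.h₂
  · rw [show (scaleC (p := p) n • W).toAffine.a₃ = _ from h3]
    exact map_mul_le_one (map_pow_le_one hp1 3) hI.h₃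
  · rw [show (scaleC (p := p) n • W).toAffine.a₄ = _ from h4]
    exact map_mul_le_one (map_pow_le_one hp1 4) hI.h₄
  · rw [show (scaleC (p := p) n • W).toAffine.a₆ = _ from h6]
    exact map_mul_le_one (map_pow_le_one hp1 6) hI.h₆

theorem norm_scale_sq (n : ℕ) :
    ‖((scaleC (p := p) n).u : ℚ_[p]) ^ 2‖ = (p : ℝ) ^ (2 * n) := by
  show ‖(((p : ℚ_[p]) ^ n)⁻¹) ^ 2‖ = _
  rw [norm_pow, norm_inv, norm_pow, Padic.norm_p]
  simp only [inv_pow, inv_inv]
  rw [← pow_mul, mul_comm n]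

variable [W.IsElliptic] (hI : IntCoeff (NormedField.valuation (K := ℚ_[p])) W.toAffine)

/-- The points with abscissa of norm above `p ^ (2 n)`, with the origin. -/
def lev (n : ℕ) : AddSubgroup W.toAffine.Point :=
  (e1Subgroup (intCoeff_scale hI n)).map (vcEquiv (scaleC n) rfl).toAddMonoidHom

theorem xc_scale (n : ℕ) (P : (scaleC (p := p) n • W).toAffine.Point) (hP : P ≠ 0) :
    xc (vcEquiv (scaleC n) rfl P) = ((scaleC (p := p) n).u : ℚ_[p]) ^ 2 * xc P := by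
  obtain ⟨x, y, h, rfl⟩ := exists_some_of_ne_zero hP
  rw [vcEquiv_some, xc_some, xc_some, vcX, show (scaleC (p := p) n).r = 0 from rfl, add_zero]

theorem mem_lev {n : ℕ} {P : W.toAffine.Point} :
    P ∈ lev hI n ↔ P = 0 ∨ (p : ℝ) ^ (2 * n) < ‖xc P‖ := by
  obtain ⟨P', rfl⟩ := (vcEquiv (scaleC (p := p) n) (rfl : scaleC n • W = _)).surjective P
  rw [lev, AddSubgroup.mem_map_equiv, AddEquiv.symm_apply_apply, mem_e1Subgroup, e1_iff]
  rcases eq_or_ne P' 0 with rfl | h0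
  · simp
  rw [or_iff_right h0, or_iff_right (fun h => h0 ((map_eq_zero_iff _ (AddEquiv.injective _)).1 h)),
    xc_scale n P' h0, norm_mul, norm_scale_sq]
  exact (lt_mul_iff_one_lt_right (pow_pos (Nat.cast_pos.2 hp.out.pos) _)).symm

theorem lev_antitone {m n : ℕ} (h : m ≤ n) : lev hI n ≤ lev hI m := fun _ hP =>
  (mem_lev hI).2 (((mem_lev hI).1 hP).imp_right
    (pow_le_pow_right₀ (Nat.one_le_cast.2 hp.out.one_le) (by omega)).trans_lt)

theorem some_mem_lev {n : ℕ} {x y : ℚ_[p]} {h : W.toAffine.Nonsingular x y} :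
    Affine.Point.some x y h ∈ lev hI n ↔ (p : ℝ) ^ (2 * n) < ‖x‖ := by
  rw [mem_lev, xc_some, or_iff_right (Affine.Point.some_ne_zero h)]

include hI in
/-- The norms of the abscissae outside the integers are even powers of `p`. -/
theorem norm_x_eq_pow {x y : ℚ_[p]} (h : W.toAffine.Nonsingular x y) {n : ℕ}
    (hx : (p : ℝ) ^ (2 * n) < ‖x‖) : ∃ j, n < j ∧ ‖x‖ = (p : ℝ) ^ (2 * j) := by
  have hp1 : (1 : ℝ) < p := Nat.one_lt_cast.2 hp.out.one_lt
  have hx1 : 1 < ‖x‖ := (one_le_pow₀ hp1.le).trans_lt hx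
  obtain ⟨h1, h2⟩ := large_of_one_lt hI h.1 (x := x) (by exact_mod_cast hx1)
  have hy : 0 < ‖y‖ := by
    have h3 : ‖x‖ < ‖y‖ := by exact_mod_cast h1
    exact (norm_nonneg _).trans_lt h3
  have h2' : ‖y‖ ^ 2 = ‖x‖ ^ 3 := by
    simpa [NormedField.valuation_apply] using congrArg NNReal.toReal h2
  obtain ⟨a, ha⟩ : ∃ a : ℤ, ‖x‖ = (p : ℝ) ^ a :=
    ⟨_, Padic.norm_eq_zpow_neg_valuation (norm_pos_iff.1 (zero_lt_one.trans hx1))⟩
  obtain ⟨b, hb⟩ : ∃ b : ℤ, ‖y‖ = (p : ℝ) ^ b :=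
    ⟨_, Padic.norm_eq_zpow_neg_valuation (norm_pos_iff.1 hy)⟩
  rw [ha, hb, ← zpow_natCast, ← zpow_natCast _ 3, ← zpow_mul, ← zpow_mul] at h2'
  have he : b * (2 : ℕ) = a * (3 : ℕ) :=
    zpow_right_injective₀ (by positivity) hp1.ne' h2'
  rw [ha, ← zpow_natCast] at hx
  have hlt : ((2 * n : ℕ) : ℤ) < a := (zpow_lt_zpow_iff_right₀ hp1).1 hx
  refine ⟨(a / 2).toNat, by omega, ?_⟩
  rw [ha, ← zpow_natCast (p : ℝ) (2 * _)]
  congr 1
  omega

/-- The points of exact level `n`. -/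
theorem norm_xc_of_exact {n : ℕ} {P : W.toAffine.Point} (h1 : P ∈ lev hI n)
    (h2 : P ∉ lev hI (n + 1)) : P ≠ 0 ∧ ‖xc P‖ = (p : ℝ) ^ (2 * (n + 1)) := by
  have h0 : P ≠ 0 := fun h => h2 (h ▸ zero_mem _)
  obtain ⟨x, y, h, rfl⟩ := exists_some_of_ne_zero h0
  rw [some_mem_lev] at h1 h2
  obtain ⟨j, hj, he⟩ := norm_x_eq_pow hI h h1
  have hj' : j ≤ n + 1 := not_lt.1 fun hlt => h2 (he.symm ▸
    pow_lt_pow_right₀ (Nat.one_lt_cast.2 hp.out.one_lt) (by omega))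
  exact ⟨h0, by rw [xc_some, he, show j = n + 1 by omega]⟩

theorem exact_of_norm_xc {n : ℕ} {P : W.toAffine.Point}
    (h : ‖xc P‖ = (p : ℝ) ^ (2 * (n + 1))) (h0 : P ≠ 0) :
    P ∈ lev hI n ∧ P ∉ lev hI (n + 1) := by
  rw [mem_lev, mem_lev, or_iff_right h0, or_iff_right h0, h]
  exact ⟨pow_lt_pow_right₀ (Nat.one_lt_cast.2 hp.out.one_lt) (by omega), lt_irrefl _⟩

/-- **Multiplication by `p` moves each layer to the next one.** -/
theorem exact_nsmul {n : ℕ} (hn : 1 ≤ n) {P : W.toAffine.Point} (h1 : P ∈ lev hI n)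
    (h2 : P ∉ lev hI (n + 1)) : p • P ∈ lev hI (n + 1) ∧ p • P ∉ lev hI (n + 2) := by
  obtain ⟨h0, hx⟩ := norm_xc_of_exact hI h1 h2
  obtain ⟨x, y, h, rfl⟩ := exists_some_of_ne_zero h0
  rw [xc_some] at hx
  have hp1 : (1 : ℝ) < p := Nat.one_lt_cast.2 hp.out.one_lt
  have hx1 : 1 < ‖x‖ := by rw [hx]; exact one_lt_pow₀ hp1 (by omega)
  have hbig : 1 < ‖(p : ℚ_[p])‖ ^ 2 * ‖x‖ := by
    rw [hx, Padic.norm_p, inv_pow, show 2 * (n + 1) = 2 + 2 * n by ring, pow_add, ← mul_assoc,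
      inv_mul_cancel₀ (by positivity), one_mul]
    exact one_lt_pow₀ hp1 (by omega)
  obtain ⟨hne, hnorm⟩ := norm_xc_nsmul hI h hx1 hp.out.two_le hbig
  refine exact_of_norm_xc hI ?_ hne
  rw [hnorm, hx, Padic.norm_p, inv_pow, div_inv_eq_mul, ← pow_add]
  congr 1

theorem exact_pow_nsmul {n : ℕ} (hn : 1 ≤ n) {P : W.toAffine.Point} (h1 : P ∈ lev hI n)
    (h2 : P ∉ lev hI (n + 1)) :
    ∀ k, p ^ k • P ∈ lev hI (n + k) ∧ p ^ k • P ∉ lev hI (n + k + 1)
  | 0 => by rw [pow_zero, one_nsmul]; exact ⟨h1, h2⟩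
  | k + 1 => by
    obtain ⟨a, b⟩ := exact_pow_nsmul hn h1 h2 k
    rw [pow_succ', mul_nsmul', ← add_assoc]
    exact exact_nsmul hI (by omega) a b

theorem nsmul_mem_lev {n : ℕ} (hn : 1 ≤ n) {P : W.toAffine.Point} (h1 : P ∈ lev hI n) :
    p • P ∈ lev hI (n + 1) := by
  by_cases h2 : P ∈ lev hI (n + 1)
  · exact nsmul_mem h2 p
  · exact (exact_nsmul hI hn h1 h2).1

theorem eq_zero_of_forall_lev {P : W.toAffine.Point} (h : ∀ n, P ∈ lev hI n) : P = 0 := by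
  by_contra h0
  obtain ⟨n, hn⟩ := pow_unbounded_of_one_lt ‖xc P‖ (Nat.one_lt_cast.2 hp.out.one_lt : (1 : ℝ) < p)
  exact lt_irrefl _ ((((mem_lev hI).1 (h n)).resolve_left h0).trans
    (hn.trans_le (pow_le_pow_right₀ (Nat.one_le_cast.2 hp.out.one_le) (by omega))))

/-- The levels have finite index. -/
theorem lev_index_ne_zero (n : ℕ) : (lev hI n).index ≠ 0 := by
  obtain ⟨T, hT, hcov⟩ := exists_finite_cover hI ((p : ℝ) ^ (2 * n) + 1)
  have := hT.to_subtype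
  have : Finite (W.toAffine.Point ⧸ lev hI n) := by
    refine Finite.of_surjective
      (fun Q : T => (QuotientAddGroup.mk Q.1 : W.toAffine.Point ⧸ lev hI n)) fun a => ?_
    obtain ⟨P, rfl⟩ := QuotientAddGroup.mk_surjective a
    obtain ⟨Q, hQ, h⟩ := hcov P
    refine ⟨⟨Q, hQ⟩, QuotientAddGroup.eq.2 ?_⟩
    rw [neg_add_eq_sub, mem_lev]
    exact h.imp_right fun h' => (lt_add_one _).trans_le h'
  exact AddSubgroup.index_ne_zero_of_finite

/-- A natural multiple prime to `p` of a point outside a level stays outside. -/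
theorem nsmul_not_mem_lev {n : ℕ} (hn : 1 ≤ n) {P : W.toAffine.Point} (h1 : P ∈ lev hI n)
    (h2 : P ∉ lev hI (n + 1)) {a : ℤ} (ha : ¬ (p : ℤ) ∣ a) : a • P ∉ lev hI (n + 1) := by
  intro h
  obtain ⟨u, v, huv⟩ := ((Nat.prime_iff_prime_int.1 hp.out).coprime_iff_not_dvd.2 ha)
  refine h2 ?_
  rw [← one_zsmul P, ← huv, add_zsmul, mul_zsmul, mul_zsmul, natCast_zsmul]
  exact add_mem (zsmul_mem (nsmul_mem_lev hI hn h1) _) (zsmul_mem h _)

theorem norm_sub_lt_of_residue {x y : ℤ_[p]} (hxy : ‖y ^ 2 - x ^ 3‖ < 1) (hx : ‖x‖ = 1) :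
    PadicInt.toZMod x = (PadicInt.toZMod y / PadicInt.toZMod x) ^ 2 ∧
      PadicInt.toZMod y = (PadicInt.toZMod y / PadicInt.toZMod x) ^ 3 := by
  have he : PadicInt.toZMod y ^ 2 = PadicInt.toZMod x ^ 3 := by
    rw [← map_pow, ← map_pow, ← sub_eq_zero, ← map_sub, ← RingHom.mem_ker, PadicInt.ker_toZMod,
      IsLocalRing.mem_maximalIdeal, PadicInt.mem_nonunits]
    exact hxy
  have hx0 : PadicInt.toZMod x ≠ 0 := fun h => by
    rw [← RingHom.mem_ker, PadicInt.ker_toZMod, IsLocalRing.mem_maximalIdeal,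
      PadicInt.mem_nonunits, hx] at h
    exact lt_irrefl _ h
  constructor <;> field_simp
  · exact he.symm
  · linear_combination -(PadicInt.toZMod y) * he

/-- The residue of the parameter `y / x` of an integral point, and zero elsewhere. -/
def parRes {V : WeierstrassCurve ℚ_[p]} : V.toAffine.Point → ZMod p
  | .zero => 0
  | .some x y _ => if h : ‖x‖ ≤ 1 ∧ ‖y‖ ≤ 1 then
      PadicInt.toZMod (⟨y, h.2⟩ : ℤ_[p]) / PadicInt.toZMod (⟨x, h.1⟩ : ℤ_[p]) else 0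

/-- Points of one exact level with the same residue of the parameter differ by a deeper point. -/
theorem exists_residue_map (n : ℕ) :
    ∃ t : W.toAffine.Point → ZMod p, ∀ P ∈ lev hI n, ∀ Q ∈ lev hI n, t P = t Q →
      P - Q ∈ lev hI (n + 1) := by
  classical
  set C := scaleC (p := p) (n + 1)
  set e := vcEquiv C (rfl : C • W = _) with he
  refine ⟨fun P => parRes (e.symm P), fun P hP Q hQ ht => ?_⟩
  replace ht : parRes (e.symm P) = parRes (e.symm Q) := ht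
  have hval : ∀ R ∈ lev hI n, R ∉ lev hI (n + 1) → ∃ (x y : ℤ_[p]) (hh : _),
      e.symm R = Affine.Point.some (x : ℚ_[p]) (y : ℚ_[p]) hh ∧ ‖x‖ = 1 ∧
        ‖y ^ 2 - x ^ 3‖ < 1 ∧
        parRes (e.symm R) = PadicInt.toZMod y / PadicInt.toZMod x := by
    intro R h1 h2
    obtain ⟨h0, hx⟩ := norm_xc_of_exact hI h1 h2
    have h0' : e.symm R ≠ 0 := fun h => h0 (by rw [← e.apply_symm_apply R, h, map_zero])
    obtain ⟨x, y, hh, hxy⟩ := exists_some_of_ne_zero h0'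
    rw [← e.apply_symm_apply R, xc_scale _ _ h0', hxy, xc_some, norm_mul, norm_scale_sq] at hx
    have hx1 : ‖x‖ = 1 := by
      refine mul_left_cancel₀ ?_ (hx.trans (mul_one _).symm)
      exact pow_ne_zero _ (Nat.cast_ne_zero.2 hp.out.ne_zero)
    have hy1 : ‖y‖ ≤ 1 := by
      exact_mod_cast le_y_of_le_x (intCoeff_scale hI (n + 1)) hh.1 (by exact_mod_cast hx1.le)
    have hz : parRes (e.symm R) = PadicInt.toZMod (⟨y, hy1⟩ : ℤ_[p]) /
        PadicInt.toZMod (⟨x, hx1.le⟩ : ℤ_[p]) := by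
      rw [hxy]
      exact dif_pos ⟨hx1.le, hy1⟩
    refine ⟨⟨x, hx1.le⟩, ⟨y, hy1⟩, hh, hxy, hx1, ?_, hz⟩
    obtain ⟨c1, c2, c3, c4, c6⟩ := scale_coeffs (W := W) (n + 1)
    have hE := (Affine.equation_iff _ _).1 hh.1
    show ‖y ^ 2 - x ^ 3‖ < 1
    rw [show y ^ 2 - x ^ 3 = ((C • W).a₂ * x ^ 2 + (C • W).a₄ * x + (C • W).a₆) -
      ((C • W).a₁ * (x * y) + (C • W).a₃ * y) by linear_combination hE]
    have hm : ∀ {c m : ℚ_[p]}, ‖c‖ < 1 → ‖m‖ ≤ 1 → ‖c * m‖ < 1 := fun hc hm => by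
      rw [norm_mul]
      exact mul_lt_one_of_nonneg_of_lt_one_left (norm_nonneg _) hc hm
    have hd : ∀ {c d : ℚ_[p]}, ‖c‖ < 1 → ‖d‖ < 1 → ‖c + d‖ < 1 := fun hc hd =>
      (IsUltrametricDist.norm_add_le_max _ _).trans_lt (max_lt hc hd)
    have hc : ∀ {k : ℕ} {a : ℚ_[p]}, k ≠ 0 → ‖a‖ ≤ 1 →
        ‖((p : ℚ_[p]) ^ (n + 1)) ^ k * a‖ < 1 := fun hk ha =>
      norm_scaled_lt n.succ_ne_zero hk ha
    have hi : ∀ {a : ℚ_[p]}, NormedField.valuation a ≤ 1 → ‖a‖ ≤ 1 :=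
      fun h => by exact_mod_cast h
    rw [sub_eq_add_neg]
    refine hd (hd (hd (hm ?_ ?_) (hm ?_ hx1.le)) ?_) ?_
    · rw [c2]; exact hc two_ne_zero (hi hI.h₂)
    · rw [norm_pow, hx1, one_pow]
    · rw [c4]; exact hc four_ne_zero (hi hI.h₄)
    · rw [c6]; exact hc (by norm_num) (hi hI.h₆)
    · rw [norm_neg]
      refine hd (hm ?_ ?_) (hm ?_ hy1)
      · rw [c1, ← pow_one ((p : ℚ_[p]) ^ (n + 1))]
        exact hc one_ne_zero (hi hI.h₁)
      · rw [norm_mul, hx1, one_mul]; exact hy1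
      · rw [c3]; exact hc three_ne_zero (hi hI.h₃)
  have htail : ∀ R ∈ lev hI (n + 1), parRes (e.symm R) = 0 := by
    intro R hR
    rw [lev, AddSubgroup.mem_map_equiv, mem_e1Subgroup] at hR
    rcases hR' : e.symm R with _ | ⟨x, y, hh⟩
    · rfl
    · refine dif_neg fun h => ?_
      rw [show (vcEquiv (scaleC (n + 1)) rfl).symm R = _ from hR', e1_some] at hR
      exact absurd (show ‖x‖₊ ≤ 1 from by exact_mod_cast h.1) (not_le.2 hR)
  have hne : ∀ x y : ℤ_[p], ‖x‖ = 1 → ‖y ^ 2 - x ^ 3‖ < 1 →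
      PadicInt.toZMod y / PadicInt.toZMod x ≠ 0 := by
    intro x y hx hxy h
    obtain ⟨h1, -⟩ := norm_sub_lt_of_residue hxy hx
    rw [h, zero_pow two_ne_zero, ← RingHom.mem_ker, PadicInt.ker_toZMod,
      IsLocalRing.mem_maximalIdeal, PadicInt.mem_nonunits, hx] at h1
    exact lt_irrefl _ h1
  by_cases hP' : P ∈ lev hI (n + 1) <;> by_cases hQ' : Q ∈ lev hI (n + 1)
  · exact sub_mem hP' hQ'
  · obtain ⟨x, y, -, -, hx, hxy, hz⟩ := hval Q hQ hQ'
    rw [htail P hP', hz] at ht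
    exact absurd ht.symm (hne x y hx hxy)
  · obtain ⟨x, y, -, -, hx, hxy, hz⟩ := hval P hP hP'
    rw [htail Q hQ', hz] at ht
    exact absurd ht (hne x y hx hxy)
  obtain ⟨x, y, hh, hP1, hx, hxy, hzP⟩ := hval P hP hP'
  obtain ⟨x', y', hh', hQ1, hx', hxy', hzQ⟩ := hval Q hQ hQ'
  rw [hzP, hzQ] at ht
  have e1 : PadicInt.toZMod x = PadicInt.toZMod x' := by
    rw [(norm_sub_lt_of_residue hxy hx).1, ht, ← (norm_sub_lt_of_residue hxy' hx').1]
  have e2 : PadicInt.toZMod y = PadicInt.toZMod y' := by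
    rw [(norm_sub_lt_of_residue hxy hx).2, ht, ← (norm_sub_lt_of_residue hxy' hx').2]
  have hclose : ∀ {a b : ℤ_[p]}, PadicInt.toZMod a = PadicInt.toZMod b →
      NormedField.valuation ((a : ℚ_[p]) - b) < 1 := fun {a b} h => by
    rw [← sub_eq_zero, ← map_sub, ← RingHom.mem_ker, PadicInt.ker_toZMod,
      IsLocalRing.mem_maximalIdeal, PadicInt.mem_nonunits] at h
    exact_mod_cast h
  have hx2 : ((x : ℚ_[p])) ≠ 0 := fun h => by
    rw [PadicInt.norm_def, h, norm_zero] at hx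
    exact zero_ne_one hx
  have hns : NsRed (NormedField.valuation (K := ℚ_[p])) (C • W).toAffine (x : ℚ_[p]) y := by
    have hy : ‖y‖ = 1 := by
      refine le_antisymm (PadicInt.norm_le_one y) (not_lt.1 fun hy => hne x y hx hxy ?_)
      rw [← PadicInt.mem_nonunits, ← IsLocalRing.mem_maximalIdeal, ← PadicInt.ker_toZMod,
        RingHom.mem_ker] at hy
      rw [hy, zero_div]
    obtain ⟨c1, c2, c3, c4, c6⟩ := scale_coeffs (W := W) (n + 1)
    have hp' : ∀ {k : ℕ} {a : ℚ_[p]}, k ≠ 0 → NormedField.valuation a ≤ 1 →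
        NormedField.valuation (((p : ℚ_[p]) ^ (n + 1)) ^ k * a) < 1 := fun hk ha => by
      exact_mod_cast norm_scaled_lt n.succ_ne_zero hk (by exact_mod_cast ha)
    have vx : NormedField.valuation (x : ℚ_[p]) = 1 := NNReal.coe_injective hx
    have vy : NormedField.valuation (y : ℚ_[p]) = 1 := NNReal.coe_injective hy
    by_cases h2 : p = 2
    · refine Or.inr (eq_one_of_sub_lt (a := 3 * (x : ℚ_[p]) ^ 2) ?_ ?_)
      · have h3 : NormedField.valuation (3 : ℚ_[p]) = 1 := by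
          refine NNReal.coe_injective ?_
          show ‖(3 : ℚ_[p])‖ = 1
          exact_mod_cast Padic.norm_natCast_eq_one_iff.2 (show p.Coprime 3 by subst h2; norm_num)
        rw [map_mul, map_pow, vx, h3, one_pow, one_mul]
      · rw [fx, show (C • W).toAffine.a₁ = _ from c1, show (C • W).toAffine.a₂ = _ from c2,
          show (C • W).toAffine.a₄ = _ from c4]
        rw [show 3 * (x : ℚ_[p]) ^ 2 + 2 * (((p : ℚ_[p]) ^ (n + 1)) ^ 2 * W.a₂) * x +
            ((p : ℚ_[p]) ^ (n + 1)) ^ 4 * W.a₄ - (p : ℚ_[p]) ^ (n + 1) * W.a₁ * y -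
            3 * (x : ℚ_[p]) ^ 2 = ((p : ℚ_[p]) ^ (n + 1)) ^ 2 * W.a₂ * (2 * x) +
            ((p : ℚ_[p]) ^ (n + 1)) ^ 4 * W.a₄ + -(((p : ℚ_[p]) ^ (n + 1)) ^ 1 * W.a₁ * y) by
              ring]
        refine Valuation.map_add_lt _ (Valuation.map_add_lt _
          (map_mul_lt_one' (hp' two_ne_zero hI.h₂) (map_mul_le_one le_two vx.le))
          (hp' four_ne_zero hI.h₄)) ?_
        rw [Valuation.map_neg]
        exact map_mul_lt_one' (hp' one_ne_zero hI.h₁) vy.le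
    · refine Or.inl (eq_one_of_sub_lt (a := 2 * (y : ℚ_[p])) ?_ ?_)
      · have h3 : NormedField.valuation (2 : ℚ_[p]) = 1 := by
          refine NNReal.coe_injective ?_
          show ‖(2 : ℚ_[p])‖ = 1
          exact_mod_cast Padic.norm_natCast_eq_one_iff.2
            ((Nat.coprime_primes hp.out Nat.prime_two).2 h2)
        rw [map_mul, vy, h3, one_mul]
      · rw [fy, show (C • W).toAffine.a₁ = _ from c1, show (C • W).toAffine.a₃ = _ from c3]
        rw [show 2 * (y : ℚ_[p]) + (p : ℚ_[p]) ^ (n + 1) * W.a₁ * x +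
            ((p : ℚ_[p]) ^ (n + 1)) ^ 3 * W.a₃ - 2 * (y : ℚ_[p]) =
            ((p : ℚ_[p]) ^ (n + 1)) ^ 1 * W.a₁ * x + ((p : ℚ_[p]) ^ (n + 1)) ^ 3 * W.a₃ by ring]
        exact Valuation.map_add_lt _ (map_mul_lt_one' (hp' one_ne_zero hI.h₁) vx.le)
          (hp' three_ne_zero hI.h₃)
  have := e1_sub_of_congr (intCoeff_scale hI (n + 1)) hh hh'
    (by exact_mod_cast hx.le) hns (hclose e1) (hclose e2)
  rw [lev, AddSubgroup.mem_map_equiv, mem_e1Subgroup, map_sub]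
  show E1 _ _ (e.symm P - e.symm Q)
  rw [hP1, hQ1]
  exact this

/-- **Each layer is cyclic.** -/
theorem exists_layer {n : ℕ} (hn : 1 ≤ n) {g : W.toAffine.Point} (h1 : g ∈ lev hI n)
    (h2 : g ∉ lev hI (n + 1)) {P : W.toAffine.Point} (hP : P ∈ lev hI n) :
    ∃ j : ℤ, P - j • g ∈ lev hI (n + 1) := by
  obtain ⟨t, ht⟩ := exists_residue_map hI n
  have hinj : Function.Injective fun j : Fin p => t ((j : ℤ) • g) := fun i j h => by
    have h' := ht _ (zsmul_mem h1 _) _ (zsmul_mem h1 _) h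
    rw [show ((i : ℕ) : ℤ) • g - ((j : ℕ) : ℤ) • g = (((i : ℕ) : ℤ) - j) • g by module] at h'
    by_contra hne
    refine nsmul_not_mem_lev hI hn h1 h2 (fun hd => hne ?_) h'
    have hi := i.2
    have hj := j.2
    have : ((i : ℕ) : ℤ) - j = 0 := Int.eq_zero_of_abs_lt_dvd hd (abs_lt.2 ⟨by omega, by omega⟩)
    exact Fin.ext (by omega)
  obtain ⟨j, hj⟩ := ((Fintype.bijective_iff_injective_and_card _).2
    ⟨hinj, by rw [Fintype.card_fin, ZMod.card]⟩).2 (t P)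
  exact ⟨j, ht _ hP _ (zsmul_mem h1 _) hj.symm⟩

end FA.LocalPts
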