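import Fermat.Agent.EC.MulFormula
import Fermat.Agent.Local.Basic
import Mathlib.Topology.Algebra.Valued.NormedValued

/-!
# The abscissa of a multiple of a point of the kernel of reduction

Over a nonarchimedean normed field the multiple `n • P` of a point with abscissa of norm above one
has norm of the abscissa at least `min (‖x‖ / ‖n‖², ‖x‖²)`, and exactly `‖x‖ / ‖n‖²` when the
latter is the smaller. This is read off the degrees and leading coefficients of `Φₙ` and `ΨSqₙ`.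
-/

set_option autoImplicit false
set_option linter.unusedSectionVars false

noncomputable section

open Polynomial WeierstrassCurve FA.EC FA.Local

namespace FA.LocalPts

variable {L : Type*} [NormedField L] [IsUltrametricDist L] [DecidableEq L]

local notation "vL" => (NormedField.valuation (K := L))

variable (W : WeierstrassCurve L)

theorem norm_coeff_phi_le (hI : IntCoeff vL W.toAffine) (n : ℤ) (k : ℕ) :
    ‖(W.Φ n).coeff k‖ ≤ 1 := by
  let W₀ : WeierstrassCurve (vL).integer :=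
    ⟨⟨W.a₁, hI.h₁⟩, ⟨W.a₂, hI.h₂⟩, ⟨W.a₃, hI.h₃⟩, ⟨W.a₄, hI.h₄⟩, ⟨W.a₆, hI.h₆⟩⟩
  have hW : W = W₀.map (vL).integer.subtype := rfl
  rw [hW, map_Φ, coeff_map]
  exact_mod_cast ((W₀.Φ n).coeff k).2

theorem norm_coeff_psiSq_le (hI : IntCoeff vL W.toAffine) (n : ℤ) (k : ℕ) :
    ‖(W.ΨSq n).coeff k‖ ≤ 1 := by
  let W₀ : WeierstrassCurve (vL).integer :=
    ⟨⟨W.a₁, hI.h₁⟩, ⟨W.a₂, hI.h₂⟩, ⟨W.a₃, hI.h₃⟩, ⟨W.a₄, hI.h₄⟩, ⟨W.a₆, hI.h₆⟩⟩
  have hW : W = W₀.map (vL).integer.subtype := rfl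
  rw [hW, map_ΨSq, coeff_map]
  exact_mod_cast ((W₀.ΨSq n).coeff k).2

/-- A sum of terms of degree at most `m` with integral coefficients. -/
theorem norm_sum_le {P : L[X]} (hc : ∀ k, ‖P.coeff k‖ ≤ 1) {x : L} (hx : 1 ≤ ‖x‖) (m : ℕ) :
    ‖∑ i ∈ Finset.range (m + 1), P.coeff i * x ^ i‖ ≤ ‖x‖ ^ m :=
  IsUltrametricDist.norm_sum_le_of_forall_le_of_nonneg (by positivity) fun i hi => by
    rw [norm_mul, norm_pow]
    exact (mul_le_of_le_one_left (by positivity) (hc i)).trans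
      (pow_le_pow_right₀ hx (Nat.lt_succ_iff.1 (Finset.mem_range.1 hi)))

variable {W} {x : L}

theorem norm_eval_phi (hI : IntCoeff vL W.toAffine) (hx : 1 < ‖x‖) {n : ℕ} (hn : n ≠ 0) :
    ‖(W.Φ n).eval x‖ = ‖x‖ ^ n ^ 2 := by
  obtain ⟨d, hd⟩ : ∃ d, n ^ 2 = d + 1 :=
    ⟨n ^ 2 - 1, (Nat.sub_add_cancel (Nat.one_le_pow _ _ (Nat.pos_of_ne_zero hn))).symm⟩
  have hdeg : (W.Φ n).natDegree < d + 2 := by
    have := W.natDegree_Φ_le (n : ℤ)
    rw [Int.natAbs_natCast] at this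
    omega
  have h1 : (W.Φ n).coeff (d + 1) = 1 := by
    have := W.coeff_Φ (n : ℤ)
    rwa [Int.natAbs_natCast, hd] at this
  rw [eval_eq_sum_range' hdeg, Finset.sum_range_succ, h1, one_mul, hd, ← norm_pow]
  refine IsUltrametricDist.norm_add_eq_max_of_norm_ne_norm ?_ |>.trans (max_eq_right ?_)
  · refine ((norm_sum_le (norm_coeff_phi_le W hI _) hx.le d).trans_lt ?_).ne
    rw [norm_pow]
    exact pow_lt_pow_right₀ hx d.lt_succ_self
  · refine (norm_sum_le (norm_coeff_phi_le W hI _) hx.le d).trans ?_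
    rw [norm_pow]
    exact pow_le_pow_right₀ hx.le d.le_succ

theorem psiSq_split (W : WeierstrassCurve L) (x : L) {n : ℕ} (hn : 2 ≤ n) :
    ∃ e : ℕ, n ^ 2 = e + 2 ∧ (W.ΨSq n).eval x =
      (∑ i ∈ Finset.range (e + 1), (W.ΨSq n).coeff i * x ^ i) + (n : L) ^ 2 * x ^ (e + 1) := by
  obtain ⟨e, he⟩ : ∃ e, n ^ 2 = e + 2 :=
    ⟨n ^ 2 - 2, by have : 4 ≤ n ^ 2 := Nat.pow_le_pow_left hn 2; omega⟩
  have hdeg : (W.ΨSq n).natDegree < e + 2 := by
    have := W.natDegree_ΨSq_le (n : ℤ)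
    rw [Int.natAbs_natCast] at this
    omega
  have h1 : (W.ΨSq n).coeff (e + 1) = (n : L) ^ 2 := by
    have := W.coeff_ΨSq (n : ℤ)
    rw [Int.natAbs_natCast, he, show e + 2 - 1 = e + 1 by omega] at this
    rw [this, Int.cast_natCast]
  exact ⟨e, he, by rw [eval_eq_sum_range' hdeg, Finset.sum_range_succ, h1]⟩

variable [W.IsElliptic] (hI : IntCoeff (NormedField.valuation (K := L)) W.toAffine) {y : L}
  (h : W.toAffine.Nonsingular x y) (hx : 1 < ‖x‖)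
include hI hx

/-- **The lower bound.** -/
theorem min_le_norm_xc_nsmul {n : ℕ} (hn : 2 ≤ n) (hn0 : (n : L) ≠ 0)
    (h0 : n • Affine.Point.some x y h ≠ 0) :
    min (‖x‖ / ‖(n : L)‖ ^ 2) (‖x‖ ^ 2) ≤ ‖xc (n • Affine.Point.some x y h)‖ := by
  obtain ⟨e, he, hψ⟩ := psiSq_split W x hn
  have hψ0 : (W.ΨSq n).eval x ≠ 0 := fun h1 => h0 ((nsmul_eq_zero_iff h n).2 h1)
  have hxpos : 0 < ‖x‖ := zero_lt_one.trans hx
  have hn' : 0 < ‖(n : L)‖ ^ 2 := by positivity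
  set c := min (‖x‖ / ‖(n : L)‖ ^ 2) (‖x‖ ^ 2)
  rw [← natCast_zsmul, xc_zsmul h (n : ℤ) (by rwa [natCast_zsmul]), norm_div,
    norm_eval_phi hI hx (by omega), le_div_iff₀ (norm_pos_iff.2 hψ0)]
  have h1 : c * ‖(n : L) ^ 2 * x ^ (e + 1)‖ ≤ ‖x‖ ^ n ^ 2 := by
    rw [norm_mul, norm_pow, norm_pow, he, pow_succ' _ (e + 1), ← mul_assoc]
    refine mul_le_mul_of_nonneg_right ?_ (by positivity)
    exact (le_div_iff₀ hn').1 (min_le_left _ _)
  have h2 : c * ‖∑ i ∈ Finset.range (e + 1), (W.ΨSq n).coeff i * x ^ i‖ ≤ ‖x‖ ^ n ^ 2 := by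
    rw [he, add_comm e 2, pow_add]
    exact mul_le_mul (min_le_right _ _) (norm_sum_le (norm_coeff_psiSq_le W hI _) hx.le e)
      (norm_nonneg _) (by positivity)
  have hc : 0 ≤ c := le_min (by positivity) (by positivity)
  refine (mul_le_mul_of_nonneg_left (hψ ▸ IsUltrametricDist.norm_add_le_max _ _) hc).trans ?_
  rw [mul_max_of_nonneg _ _ hc]
  exact max_le h2 h1

/-- **Deep points**: the exact norm; in particular the multiple is not zero. -/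
theorem norm_xc_nsmul {n : ℕ} (hn : 2 ≤ n) (hn0 : 1 < ‖(n : L)‖ ^ 2 * ‖x‖) :
    n • Affine.Point.some x y h ≠ 0 ∧
      ‖xc (n • Affine.Point.some x y h)‖ = ‖x‖ / ‖(n : L)‖ ^ 2 := by
  obtain ⟨e, he, hψ⟩ := psiSq_split W x hn
  have hxpos : 0 < ‖x‖ := zero_lt_one.trans hx
  have hlt : ‖∑ i ∈ Finset.range (e + 1), (W.ΨSq n).coeff i * x ^ i‖ <
      ‖(n : L) ^ 2 * x ^ (e + 1)‖ := by
    refine (norm_sum_le (norm_coeff_psiSq_le W hI _) hx.le e).trans_lt ?_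
    rw [norm_mul, norm_pow, norm_pow, pow_succ' ‖x‖ e, ← mul_assoc]
    exact lt_mul_of_one_lt_left (by positivity) hn0
  have hΨ : ‖(W.ΨSq n).eval x‖ = ‖(n : L)‖ ^ 2 * ‖x‖ ^ (e + 1) := by
    rw [hψ, IsUltrametricDist.norm_add_eq_max_of_norm_ne_norm hlt.ne, max_eq_right hlt.le,
      norm_mul, norm_pow, norm_pow]
  have h0 : n • Affine.Point.some x y h ≠ 0 := fun h1 => by
    rw [(nsmul_eq_zero_iff h n).1 h1, norm_zero] at hΨ
    exact (norm_nonneg _).not_gt (hlt.trans_eq (by rw [norm_mul, norm_pow, norm_pow, ← hΨ]))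
  refine ⟨h0, ?_⟩
  rw [← natCast_zsmul, xc_zsmul h (n : ℤ) (by rwa [natCast_zsmul]), norm_div,
    norm_eval_phi hI hx (by omega), hΨ, he, pow_succ' ‖x‖ (e + 1)]
  field_simp

end FA.LocalPts
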